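/-
S16 / UB core (helper11): coset representatives of `Γ₀(p) \ SL(2,ℤ)` (`p` prime) and the explicit trace
`s16ubTr k p f = f + ∑_{j<p} f ∣[k] (S T^j)` of a `Γ₀(p)`-invariant function, which is `SL(2,ℤ)`-invariant.
-/
import Mathlib

set_option autoImplicit false
set_option linter.style.haveILetI false
set_option linter.unusedSectionVars false

noncomputable section

namespace Fermat.Agent.S16

open UpperHalfPlane ModularForm ModularGroup CongruenceSubgroup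
open scoped MatrixGroups ModularForm Manifold

/-- the `p + 1` representatives `1, S T^j (j < p)`. -/
def s16ubRep (p : ℕ) : Option (Fin p) → SL(2, ℤ)
  | none => 1
  | some j => S * T ^ (j : ℕ)

@[simp] theorem s16ubRep_none (p : ℕ) : s16ubRep p none = 1 := rfl

@[simp] theorem s16ubRep_some (p : ℕ) (j : Fin p) : s16ubRep p (some j) = S * T ^ (j : ℕ) := rfl

theorem s16ub_ST_coe (j : ℕ) :
    ((S * T ^ j : SL(2, ℤ)) : Matrix (Fin 2) (Fin 2) ℤ) = !![0, -1; 1, (j : ℤ)] := by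
  have hT : ((T ^ j : SL(2, ℤ)) : Matrix (Fin 2) (Fin 2) ℤ) = !![1, (j : ℤ); 0, 1] := by
    have := ModularGroup.coe_T_zpow (j : ℤ)
    rw [zpow_natCast] at this
    exact this
  rw [Matrix.SpecialLinearGroup.coe_mul, hT, ModularGroup.coe_S]
  ext a b
  fin_cases a <;> fin_cases b <;> simp [Matrix.mul_apply, Fin.sum_univ_two]

/-- lower-left entry of `γ (S T^j)⁻¹`. -/
theorem s16ub_mul_ST_inv_10 (γ : SL(2, ℤ)) (j : ℕ) :
    (γ * (S * T ^ j)⁻¹ : SL(2, ℤ)) 1 0 = γ 1 0 * j - γ 1 1 := by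
  have hinv : (((S * T ^ j : SL(2, ℤ))⁻¹ : SL(2, ℤ)) : Matrix (Fin 2) (Fin 2) ℤ) =
      !![(j : ℤ), 1; -1, 0] := by
    rw [Matrix.SpecialLinearGroup.coe_inv, s16ub_ST_coe, Matrix.adjugate_fin_two_of]
    simp
  show ((γ * (S * T ^ j)⁻¹ : SL(2, ℤ)) : Matrix (Fin 2) (Fin 2) ℤ) 1 0 = _
  rw [Matrix.SpecialLinearGroup.coe_mul, hinv]
  simp [Matrix.mul_apply, Fin.sum_univ_two]
  ring

variable (p : ℕ) [hp : Fact p.Prime]

/-- every `γ` lies in `Γ₀(p) r_i` for some `i`. -/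
theorem s16ub_coset (γ : SL(2, ℤ)) : ∃ i : Option (Fin p), γ * (s16ubRep p i)⁻¹ ∈ Gamma0 p := by
  by_cases hc : ((γ 1 0 : ℤ) : ZMod p) = 0
  · exact ⟨none, by simpa [Gamma0_mem] using hc⟩
  · -- `j ≡ d / c`
    haveI : NeZero p := ⟨hp.out.ne_zero⟩
    let c : ZMod p := ((γ 1 0 : ℤ) : ZMod p)
    let d : ZMod p := ((γ 1 1 : ℤ) : ZMod p)
    let j : Fin p := (ZMod.finEquiv p).symm (d * c⁻¹)
    have hj : ((j : ℕ) : ZMod p) = d * c⁻¹ := by
      have := ZMod.natCast_zmod_val (d * c⁻¹)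
      convert this using 2
      cases p with
      | zero => exact absurd rfl (NeZero.ne 0)
      | succ n => rfl
    refine ⟨some j, ?_⟩
    rw [s16ubRep_some, Gamma0_mem, s16ub_mul_ST_inv_10]
    push_cast
    rw [hj]
    show c * (d * c⁻¹) - d = 0
    rw [mul_comm d, ← mul_assoc, mul_inv_cancel₀ hc, one_mul, sub_self]

/-- the representatives are pairwise inequivalent. -/
theorem s16ub_rep_inj {i i' : Option (Fin p)}
    (h : s16ubRep p i * (s16ubRep p i')⁻¹ ∈ Gamma0 p) : i = i' := by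
  have hp1 : ((1 : ℤ) : ZMod p) ≠ 0 := by
    haveI : Fact (1 < p) := ⟨hp.out.one_lt⟩
    simp
  rcases i with _ | j <;> rcases i' with _ | j'
  · rfl
  · exfalso
    rw [s16ubRep_none, s16ubRep_some, Gamma0_mem, s16ub_mul_ST_inv_10] at h
    simp at h
  · exfalso
    rw [s16ubRep_none, s16ubRep_some, inv_one, mul_one, Gamma0_mem] at h
    have : (S * T ^ (j : ℕ) : SL(2, ℤ)) 1 0 = 1 := by
      show ((S * T ^ (j : ℕ) : SL(2, ℤ)) : Matrix (Fin 2) (Fin 2) ℤ) 1 0 = 1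
      rw [s16ub_ST_coe]; simp
    rw [this] at h
    exact hp1 h
  · rw [s16ubRep_some, s16ubRep_some, Gamma0_mem, s16ub_mul_ST_inv_10] at h
    have h10 : (S * T ^ (j : ℕ) : SL(2, ℤ)) 1 0 = 1 := by
      show ((S * T ^ (j : ℕ) : SL(2, ℤ)) : Matrix (Fin 2) (Fin 2) ℤ) 1 0 = 1
      rw [s16ub_ST_coe]; simp
    have h11 : (S * T ^ (j : ℕ) : SL(2, ℤ)) 1 1 = (j : ℤ) := by
      show ((S * T ^ (j : ℕ) : SL(2, ℤ)) : Matrix (Fin 2) (Fin 2) ℤ) 1 1 = (j : ℤ)
      rw [s16ub_ST_coe]; simp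
    rw [h10, h11, one_mul] at h
    have h2 : (((j' : ℕ) : ℤ) : ZMod p) = (((j : ℕ) : ℤ) : ZMod p) := by
      push_cast at h ⊢
      exact sub_eq_zero.mp h
    have h3 : ((j' : ℕ) : ZMod p) = ((j : ℕ) : ZMod p) := by exact_mod_cast h2
    rw [ZMod.natCast_eq_natCast_iff'] at h3
    rw [Nat.mod_eq_of_lt j'.2, Nat.mod_eq_of_lt j.2] at h3
    exact congrArg some (Fin.ext h3.symm)

/-- the explicit trace to level one. -/
def s16ubTr (k : ℤ) (f : ℍ → ℂ) : ℍ → ℂ := ∑ i : Option (Fin p), f ∣[k] s16ubRep p i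

theorem s16ubTr_eq (k : ℤ) (f : ℍ → ℂ) :
    s16ubTr p k f = f + ∑ j : Fin p, f ∣[k] (S * T ^ (j : ℕ)) := by
  rw [s16ubTr, Fintype.sum_option, s16ubRep_none, SlashAction.slash_one]
  rfl

/-- the trace of a `Γ₀(p)`-invariant function is `SL(2,ℤ)`-invariant. -/
theorem s16ubTr_slash (k : ℤ) (f : ℍ → ℂ) (hinv : ∀ γ ∈ Gamma0 p, f ∣[k] γ = f) (γ : SL(2, ℤ)) :
    (s16ubTr p k f) ∣[k] γ = s16ubTr p k f := by
  classical
  choose σ hσ using fun i : Option (Fin p) => s16ub_coset p (s16ubRep p i * γ)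
  have hterm : ∀ i, (f ∣[k] s16ubRep p i) ∣[k] γ = f ∣[k] s16ubRep p (σ i) := fun i => by
    rw [← SlashAction.slash_mul]
    have h1 : s16ubRep p i * γ =
        (s16ubRep p i * γ * (s16ubRep p (σ i))⁻¹) * s16ubRep p (σ i) := by group
    rw [h1, SlashAction.slash_mul, hinv _ (hσ i)]
  have hσinj : Function.Injective σ := fun i i' h => by
    apply s16ub_rep_inj p
    have h1 : s16ubRep p i * (s16ubRep p i')⁻¹ =
        (s16ubRep p i * γ * (s16ubRep p (σ i))⁻¹) *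
          (s16ubRep p i' * γ * (s16ubRep p (σ i'))⁻¹)⁻¹ := by
      rw [h]; group
    rw [h1]
    exact (Gamma0 p).mul_mem (hσ i) ((Gamma0 p).inv_mem (hσ i'))
  have hσbij : Function.Bijective σ := Finite.injective_iff_bijective.mp hσinj
  rw [s16ubTr, SlashAction.sum_slash]
  simp only [hterm]
  exact Function.Bijective.sum_comp hσbij (fun i => f ∣[k] s16ubRep p i)

end Fermat.Agent.S16
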