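import Mathlib

/-!
# S16, upper bound, case (c): the characteristic-`ℓ` algebra (leaf C-ALG)

`F = ZMod ℓ`, `ℓ ≥ 5`, `M = ℓ^a`: in `F((q))` with `e₄ = ε₄`, `e₆ = ε₆`, `Δ = q D`, `1/Δ = q⁻¹ Dinv`,
`j = e₄³/Δ`, `e₄³ - e₆² = 1728 Δ`, the relation `b e₄^(M-3) e₆ Δ^(-(M-1)/2) = P(j)` (`b ≠ 0` a
constant) is impossible.

Route: `N := (M-1)/2`, `t := 1/j = X D ε₄⁻³ ∈ F[[q]]`; the lowest term shows `natDegree P ≤ N`;
multiply by `t^N`: `b e₆ = e₄^(N+2) Φ(t)`, `Φ := reflect N P`; square and use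
`e₆² = e₄³ (1 - 1728 t)`: `b² (1 - 1728 t) = e₄^M Φ(t)²`, so `Θ(t) = (e₄ Φ(t))^M` with
`Θ := C b² (1 - 1728 X) Φ^(M-2)`.  Inseparability (`s16cc_ins`): `Θ(t) = u^(ℓ^a)` implies
`Θ = Θ₁^(ℓ^a)`.  Root multiplicities at `r = 1728⁻¹`: `1 + (M-2) v = M v₁` with
`v ≤ deg Φ ≤ (M-1)/2`: absurd.
-/

set_option autoImplicit false

noncomputable section

namespace Fermat.Agent.S16

open Polynomial PowerSeries

section General

variable {F : Type*} [Field F]

/-- the constant coefficient of `G(t)`, `t(0) = 0`. -/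
theorem s16cc_constantCoeff_aeval (t : PowerSeries F) (ht0 : constantCoeff t = 0) (G : F[X]) :
    constantCoeff (aeval t G) = G.coeff 0 := by
  rw [aeval_def, hom_eval₂, ht0, eval₂_at_zero]
  simp

/-- substitution of a nonzero series without constant term is injective on polynomials. -/
theorem s16cc_aeval_injective (t : PowerSeries F) (ht0 : constantCoeff t = 0) (ht : t ≠ 0)
    (G : F[X]) (hG : aeval t G = 0) : G = 0 := by
  by_contra hne
  obtain ⟨G₁, hG₁, hndvd⟩ := exists_eq_pow_rootMultiplicity_mul_and_not_dvd G hne 0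
  simp only [map_zero, sub_zero] at hG₁ hndvd
  have hc0 : G₁.coeff 0 ≠ 0 := fun h => hndvd (X_dvd_iff.mpr h)
  rw [hG₁, map_mul, map_pow, aeval_X] at hG
  have h1 : aeval t G₁ ≠ 0 := by
    intro h
    have h2 := s16cc_constantCoeff_aeval t ht0 G₁
    rw [h, map_zero] at h2
    exact hc0 h2.symm
  exact (mul_ne_zero (pow_ne_zero _ ht) h1) hG

/-- root multiplicity of a power. -/
theorem s16cc_rootMultiplicity_pow (p : F[X]) (hp : p ≠ 0) (x : F) (n : ℕ) :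
    rootMultiplicity x (p ^ n) = n * rootMultiplicity x p := by
  induction n with
  | zero => simp
  | succ n ih =>
    rw [pow_succ, rootMultiplicity_mul (mul_ne_zero (pow_ne_zero n hp) hp), ih]
    ring

end General

section INS

variable (ℓ : ℕ) [Fact ℓ.Prime]

theorem s16cc_charP : CharP (PowerSeries (ZMod ℓ)) ℓ :=
  charP_of_injective_algebraMap (algebraMap (ZMod ℓ) (PowerSeries (ZMod ℓ))).injective ℓ

/-- **Inseparability**: a polynomial `Θ` over `𝔽_ℓ` with `Θ(t)` an `ℓ^a`-th power in `𝔽_ℓ[[X]]`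
(`t` a uniformiser) is an `ℓ^a`-th power. -/
theorem s16cc_ins (t : PowerSeries (ZMod ℓ)) (ht0 : constantCoeff t = 0)
    (ht1 : PowerSeries.coeff 1 t ≠ 0) :
    ∀ (a : ℕ) (Θ : (ZMod ℓ)[X]) (u : PowerSeries (ZMod ℓ)), aeval t Θ = u ^ (ℓ ^ a) →
      ∃ Θ₁ : (ZMod ℓ)[X], Θ = Θ₁ ^ (ℓ ^ a) := by
  have := s16cc_charP ℓ
  have htne : t ≠ 0 := fun h => ht1 (by rw [h, map_zero])
  intro a
  induction a with
  | zero => intro Θ u _; exact ⟨Θ, by simp⟩
  | succ a ih =>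
    intro Θ u h
    have hd : (d⁄dX (ZMod ℓ)) (aeval t Θ) = 0 := by
      rw [h, pow_succ, pow_mul, Derivation.leibniz_pow, nsmul_eq_mul, CharP.cast_eq_zero,
        zero_mul]
    rw [Derivation.map_aeval, smul_eq_mul] at hd
    have hdt : (d⁄dX (ZMod ℓ)) t ≠ 0 := by
      intro h0
      have h1 := congrArg (PowerSeries.coeff 0) h0
      rw [PowerSeries.coeff_derivative, map_zero] at h1
      simp at h1
      exact ht1 h1
    have hΘ' : aeval t (derivative Θ) = 0 := (mul_eq_zero.mp hd).resolve_right hdt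
    have hder : derivative Θ = 0 := s16cc_aeval_injective t ht0 htne _ hΘ'
    have hexp : expand (ZMod ℓ) ℓ (contract ℓ Θ) = Θ :=
      expand_contract ℓ hder (Fact.out : ℓ.Prime).ne_zero
    rw [ZMod.expand_card] at hexp
    have hg : aeval t (contract ℓ Θ) = u ^ (ℓ ^ a) := by
      apply frobenius_inj (PowerSeries (ZMod ℓ)) ℓ
      simp only [frobenius_def]
      rw [← map_pow, hexp, h, pow_succ, pow_mul]
    obtain ⟨Θ₁, hΘ₁⟩ := ih _ u hg
    exact ⟨Θ₁, by rw [← hexp, hΘ₁, ← pow_mul, ← pow_succ]⟩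

end INS


section Main

variable (ℓ : ℕ) [Fact ℓ.Prime]

local notation "ιL" => HahnSeries.ofPowerSeries ℤ (ZMod ℓ)

/-- `ofPowerSeries` commutes with polynomial substitution. -/
theorem s16cc_ofPS_aeval (t : PowerSeries (ZMod ℓ)) (Q : (ZMod ℓ)[X]) :
    aeval (HahnSeries.ofPowerSeries ℤ (ZMod ℓ) t) Q =
      HahnSeries.ofPowerSeries ℤ (ZMod ℓ) (aeval t Q) := by
  induction Q using Polynomial.induction_on with
  | C c =>
    rw [aeval_C, aeval_C]
    rfl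
  | add p q hp hq => rw [map_add, map_add, map_add, hp, hq]
  | monomial n c h =>
    have e : (Polynomial.C c * Polynomial.X ^ (n + 1) : (ZMod ℓ)[X]) =
        (Polynomial.C c * Polynomial.X ^ n) * Polynomial.X := by ring
    rw [e]
    simp only [map_mul, aeval_X] at h ⊢
    rw [h]

/-- `1728 ≠ 0` in `𝔽_ℓ`, `ℓ ≥ 5`. -/
theorem s16cc_1728_ne_zero (hℓ : 5 ≤ ℓ) : (1728 : ZMod ℓ) ≠ 0 := by
  have hp : ℓ.Prime := Fact.out
  intro h
  have h1 : ((1728 : ℕ) : ZMod ℓ) = 0 := by exact_mod_cast h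
  rw [ZMod.natCast_eq_zero_iff] at h1
  have h2 : (1728 : ℕ) = 2 ^ 6 * 3 ^ 3 := by norm_num
  rw [h2] at h1
  rcases (Nat.Prime.dvd_mul hp).mp h1 with h3 | h3
  · have := Nat.le_of_dvd (by norm_num) (hp.dvd_of_dvd_pow h3); omega
  · have := Nat.le_of_dvd (by norm_num) (hp.dvd_of_dvd_pow h3); omega

/-- the arithmetic contradiction `1 + (M-2) v = M v₁`, `M = 2N+1`, `v ≤ N`, `N ≥ 2`. -/
theorem s16cc_arith (N v v₁ : ℕ) (hN : 2 ≤ N) (hv : v ≤ N)
    (h : 1 + (2 * N + 1 - 2) * v = (2 * N + 1) * v₁) : False := by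
  have h' : (1 : ℤ) + (2 * N - 1) * v = (2 * N + 1) * v₁ := by
    have h1 : 2 * N + 1 - 2 = 2 * N - 1 := by omega
    rw [h1] at h
    have h2 : ((2 * N - 1 : ℕ) : ℤ) = 2 * (N : ℤ) - 1 := by
      rw [Nat.cast_sub (by omega)]; push_cast; ring
    have := congrArg (fun x : ℕ => (x : ℤ)) h
    simp only [Nat.cast_add, Nat.cast_mul, Nat.cast_one, h2] at this
    push_cast at this
    linarith
  have hN' : (2 : ℤ) ≤ N := by exact_mod_cast hN
  have hv' : (v : ℤ) ≤ N := by exact_mod_cast hv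
  have hv0 : (0 : ℤ) ≤ v := by positivity
  -- (2N+1)(v₁ - v) = 1 - 2v
  have key : (2 * (N : ℤ) + 1) * ((v₁ : ℤ) - v) = 1 - 2 * v := by linarith
  rcases lt_trichotomy ((v₁ : ℤ) - v) 0 with hd | hd | hd
  · have : (2 * (N : ℤ) + 1) * ((v₁ : ℤ) - v) ≤ (2 * (N : ℤ) + 1) * (-1) := by
      apply mul_le_mul_of_nonneg_left (by omega) (by omega)
    omega
  · rw [hd, mul_zero] at key; omega
  · have : (2 * (N : ℤ) + 1) * 1 ≤ (2 * (N : ℤ) + 1) * ((v₁ : ℤ) - v) := by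
      apply mul_le_mul_of_nonneg_left (by omega) (by omega)
    omega

theorem s16uc_caseC_alg (ℓ : ℕ) [Fact ℓ.Prime] (hℓ : 5 ≤ ℓ) (a : ℕ) (ha : 1 ≤ a)
    (ε₄ ε₆ D Dinv : PowerSeries (ZMod ℓ))
    (h4 : PowerSeries.constantCoeff ε₄ = 1) (hD : D * Dinv = 1)
    (h1728 : ε₄ ^ 3 - ε₆ ^ 2 = PowerSeries.C (1728 : ZMod ℓ) * PowerSeries.X * D)
    (b : ZMod ℓ) (hb : b ≠ 0) (P : Polynomial (ZMod ℓ))
    (hrel : HahnSeries.C b * HahnSeries.ofPowerSeries ℤ (ZMod ℓ) ε₄ ^ (ℓ ^ a - 3) *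
        HahnSeries.ofPowerSeries ℤ (ZMod ℓ) ε₆ *
        (HahnSeries.single (-1 : ℤ) (1 : ZMod ℓ) * HahnSeries.ofPowerSeries ℤ (ZMod ℓ) Dinv) ^
          ((ℓ ^ a - 1) / 2) =
      Polynomial.aeval (HahnSeries.single (-1 : ℤ) (1 : ZMod ℓ) *
        HahnSeries.ofPowerSeries ℤ (ZMod ℓ) (ε₄ ^ 3 * Dinv)) P) : False := by
  have hp : ℓ.Prime := Fact.out
  -- `M = ℓ^a = 2N+1`
  obtain ⟨N, hMN⟩ : ∃ N, ℓ ^ a = 2 * N + 1 := by
    have hodd : Odd (ℓ ^ a) := (hp.odd_of_ne_two (by omega)).pow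
    obtain ⟨N, hN⟩ := hodd
    exact ⟨N, hN⟩
  have hM5 : 5 ≤ ℓ ^ a := by
    calc 5 ≤ ℓ := hℓ
      _ = ℓ ^ 1 := (pow_one ℓ).symm
      _ ≤ ℓ ^ a := Nat.pow_le_pow_right hp.pos ha
  have hN2 : 2 ≤ N := by omega
  have hNdiv : (ℓ ^ a - 1) / 2 = N := by omega
  have hM3 : ℓ ^ a - 3 = 2 * N - 2 := by omega
  rw [hNdiv, hM3] at hrel
  -- notation
  set ι := HahnSeries.ofPowerSeries ℤ (ZMod ℓ) with hι
  set q : HahnSeries ℤ (ZMod ℓ) := HahnSeries.single (1 : ℤ) (1 : ZMod ℓ) with hq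
  set qi : HahnSeries ℤ (ZMod ℓ) := HahnSeries.single (-1 : ℤ) (1 : ZMod ℓ) with hqi
  have hqqi : qi * q = 1 := by
    rw [hq, hqi, HahnSeries.single_mul_single]; simp
  have hqX : ι PowerSeries.X = q := HahnSeries.ofPowerSeries_X
  -- the inverse of `ε₄`
  have h4ne : PowerSeries.constantCoeff ε₄ ≠ 0 := by rw [h4]; exact one_ne_zero
  set e := ε₄⁻¹ with he
  have hee : ε₄ * e = 1 := PowerSeries.mul_inv_cancel ε₄ h4ne
  have hε₄0 : ε₄ ≠ 0 := fun h => h4ne (by rw [h, map_zero])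
  -- constants of `D`, `Dinv`
  have hDc : PowerSeries.constantCoeff D * PowerSeries.constantCoeff Dinv = 1 := by
    rw [← map_mul, hD, map_one]
  have hDinvc : PowerSeries.constantCoeff Dinv ≠ 0 := right_ne_zero_of_mul_eq_one hDc
  have hDc0 : PowerSeries.constantCoeff D ≠ 0 := left_ne_zero_of_mul_eq_one hDc
  -- `t = 1/j`
  set t : PowerSeries (ZMod ℓ) := PowerSeries.X * D * e ^ 3 with ht
  have ht0 : PowerSeries.constantCoeff t = 0 := by
    rw [ht, map_mul, map_mul, PowerSeries.constantCoeff_X, zero_mul, zero_mul]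
  have hec : PowerSeries.constantCoeff e = 1 := by
    have := congrArg (PowerSeries.constantCoeff (R := ZMod ℓ)) hee
    rwa [map_mul, h4, one_mul, map_one] at this
  have ht1 : PowerSeries.coeff 1 t ≠ 0 := by
    rw [ht, mul_assoc, PowerSeries.coeff_succ_X_mul, PowerSeries.coeff_zero_eq_constantCoeff_apply,
      map_mul, map_pow, hec, one_pow, mul_one]
    exact hDc0
  have htε : t * ε₄ ^ 3 = PowerSeries.X * D := by
    rw [ht, mul_assoc, ← mul_pow, mul_comm e ε₄, hee, one_pow, mul_one]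
  set j : HahnSeries ℤ (ZMod ℓ) := qi * ι (ε₄ ^ 3 * Dinv) with hj
  have hjq : j * q = ι (ε₄ ^ 3 * Dinv) := by
    rw [hj, mul_comm qi, mul_assoc, hqqi, mul_one]
  have hjt : j * ι t = 1 := by
    rw [hj, mul_assoc, ← map_mul]
    have h1 : ε₄ ^ 3 * Dinv * t = PowerSeries.X := by
      calc ε₄ ^ 3 * Dinv * t = (t * ε₄ ^ 3) * Dinv := by ring
        _ = PowerSeries.X * (D * Dinv) := by rw [htε]; ring
        _ = PowerSeries.X := by rw [hD, mul_one]
    rw [h1, hqX, hqqi]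
  let invj : Invertible j := ⟨ι t, by rw [mul_comm]; exact hjt, hjt⟩
  have hinvj : ⅟j = ι t := rfl
  -- `P(j) = Φ_n(t) j^n` for `n ≥ natDegree P`
  have hrefl : ∀ n : ℕ, P.natDegree ≤ n → aeval j P = ι (aeval t (reflect n P)) * j ^ n := by
    intro n hn
    have h1 := eval₂_reflect_mul_pow (algebraMap (ZMod ℓ) (HahnSeries ℤ (ZMod ℓ))) j n P hn
    rw [hinvj] at h1
    rw [aeval_def, ← h1, ← aeval_def, s16cc_ofPS_aeval]
  -- the left-hand side times `q^N`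
  set L : PowerSeries (ZMod ℓ) := PowerSeries.C b * ε₄ ^ (2 * N - 2) * ε₆ * Dinv ^ N with hL
  have hLrel : ι L = aeval j P * q ^ N := by
    rw [← hrel, hL, map_mul, map_mul, map_mul, map_pow, map_pow, HahnSeries.ofPowerSeries_C,
      mul_pow]
    have : qi ^ N * q ^ N = 1 := by rw [← mul_pow, hqqi, one_pow]
    calc HahnSeries.C b * ι ε₄ ^ (2 * N - 2) * ι ε₆ * ι Dinv ^ N
        = HahnSeries.C b * ι ε₄ ^ (2 * N - 2) * ι ε₆ * ι Dinv ^ N * (qi ^ N * q ^ N) := by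
          rw [this, mul_one]
      _ = _ := by ring
  -- degree bound
  have hdeg : P.natDegree ≤ N := by
    by_contra hcon
    push Not at hcon
    set n := P.natDegree with hn
    have hP0 : P ≠ 0 := by
      intro h0
      rw [h0, natDegree_zero] at hn
      omega
    have h1 : ι (L * PowerSeries.X ^ (n - N)) =
        ι (aeval t (reflect n P) * (ε₄ ^ 3 * Dinv) ^ n) := by
      have e1 : q ^ N * q ^ (n - N) = q ^ n := by rw [← pow_add]; congr 1; omega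
      have e2 : ι (L * PowerSeries.X ^ (n - N)) = ι L * q ^ (n - N) := by
        rw [map_mul, map_pow, hqX]
      have e3 : ι (aeval t (reflect n P) * (ε₄ ^ 3 * Dinv) ^ n) =
          ι (aeval t (reflect n P)) * (j * q) ^ n := by
        rw [map_mul, map_pow, hjq]
      rw [e2, e3, hLrel, hrefl n le_rfl]
      calc ι (aeval t (reflect n P)) * j ^ n * q ^ N * q ^ (n - N)
          = ι (aeval t (reflect n P)) * j ^ n * (q ^ N * q ^ (n - N)) := by ring
        _ = ι (aeval t (reflect n P)) * (j * q) ^ n := by rw [e1]; ring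
    have h2 := HahnSeries.ofPowerSeries_injective h1
    have h3 := congrArg (PowerSeries.constantCoeff (R := ZMod ℓ)) h2
    rw [map_mul, map_pow, PowerSeries.constantCoeff_X, zero_pow (by omega), mul_zero, map_mul,
      s16cc_constantCoeff_aeval t ht0, coeff_reflect, revAt_le (Nat.zero_le n), Nat.sub_zero,
      map_pow, map_mul, map_pow, h4, one_pow, one_mul] at h3
    have h5 : P.coeff n ≠ 0 := by
      rw [hn]; exact leadingCoeff_ne_zero.mpr hP0
    exact (mul_ne_zero h5 (pow_ne_zero n hDinvc)) h3.symm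
  -- the power series identity
  set Φ : (ZMod ℓ)[X] := reflect N P with hΦ
  have hΦdeg : Φ.natDegree ≤ N := by
    have := natDegree_reflect_le (N := N) (p := P)
    rw [max_eq_left hdeg] at this
    exact this
  have hL2 : L = aeval t Φ * (ε₄ ^ 3 * Dinv) ^ N := by
    apply HahnSeries.ofPowerSeries_injective (Γ := ℤ)
    show ι L = ι (aeval t Φ * (ε₄ ^ 3 * Dinv) ^ N)
    have e3 : ι (aeval t Φ * (ε₄ ^ 3 * Dinv) ^ N) = ι (aeval t Φ) * (j * q) ^ N := by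
      rw [map_mul, map_pow, hjq]
    rw [e3, hLrel, hrefl N hdeg]
    ring
  -- `b ε₆ = Φ(t) ε₄^(N+2)`
  have hDinvN : Dinv ^ N ≠ 0 := pow_ne_zero _ (fun h => hDinvc (by rw [h, map_zero]))
  have h6 : PowerSeries.C b * ε₆ = aeval t Φ * ε₄ ^ (N + 2) := by
    have h1 : (PowerSeries.C b * ε₆) * (ε₄ ^ (2 * N - 2) * Dinv ^ N) =
        (aeval t Φ * ε₄ ^ (N + 2)) * (ε₄ ^ (2 * N - 2) * Dinv ^ N) := by
      have h2 : ε₄ ^ (N + 2) * ε₄ ^ (2 * N - 2) = (ε₄ ^ 3) ^ N := by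
        rw [← pow_add, ← pow_mul]; congr 1; omega
      calc (PowerSeries.C b * ε₆) * (ε₄ ^ (2 * N - 2) * Dinv ^ N) = L := by rw [hL]; ring
        _ = aeval t Φ * ((ε₄ ^ 3) ^ N * Dinv ^ N) := by rw [hL2, mul_pow]
        _ = _ := by rw [← h2]; ring
    exact mul_right_cancel₀ (mul_ne_zero (pow_ne_zero _ hε₄0) hDinvN) h1
  -- `b² (1 - 1728 t) = Φ(t)² ε₄^M`
  have h7 : ε₆ ^ 2 = ε₄ ^ 3 * (1 - PowerSeries.C (1728 : ZMod ℓ) * t) := by
    have : ε₆ ^ 2 = ε₄ ^ 3 - PowerSeries.C (1728 : ZMod ℓ) * PowerSeries.X * D := by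
      rw [← h1728]; ring
    rw [this, mul_sub, mul_one, mul_assoc (PowerSeries.C (1728 : ZMod ℓ)), ← htε]
    ring
  have h8 : PowerSeries.C (b ^ 2) * (1 - PowerSeries.C (1728 : ZMod ℓ) * t) =
      aeval t Φ ^ 2 * ε₄ ^ (2 * N + 1) := by
    have h1 : (PowerSeries.C (b ^ 2) * (1 - PowerSeries.C (1728 : ZMod ℓ) * t)) * ε₄ ^ 3 =
        (aeval t Φ ^ 2 * ε₄ ^ (2 * N + 1)) * ε₄ ^ 3 := by
      calc (PowerSeries.C (b ^ 2) * (1 - PowerSeries.C (1728 : ZMod ℓ) * t)) * ε₄ ^ 3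
          = (PowerSeries.C b * ε₆) ^ 2 := by rw [mul_pow, h7, map_pow]; ring
        _ = (aeval t Φ * ε₄ ^ (N + 2)) ^ 2 := by rw [h6]
        _ = _ := by ring
    exact mul_right_cancel₀ (pow_ne_zero _ hε₄0) h1
  -- `Φ ≠ 0`
  have hΦ0 : Φ ≠ 0 := by
    intro h0
    rw [h0, map_zero, zero_pow two_ne_zero, zero_mul] at h8
    have h1 := congrArg (PowerSeries.constantCoeff (R := ZMod ℓ)) h8
    rw [map_mul, PowerSeries.constantCoeff_C, map_sub, map_one, map_mul, ht0, mul_zero, sub_zero,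
      mul_one, map_zero] at h1
    exact hb (pow_eq_zero_iff two_ne_zero |>.mp h1)
  -- `Θ`
  have h1728ne := s16cc_1728_ne_zero ℓ hℓ
  set r : ZMod ℓ := (1728 : ZMod ℓ)⁻¹ with hr
  set c : ZMod ℓ := b ^ 2 * (-1728) with hc
  have hc0 : c ≠ 0 := mul_ne_zero (pow_ne_zero 2 hb) (neg_ne_zero.mpr h1728ne)
  set Θ : (ZMod ℓ)[X] := Polynomial.C c * (Polynomial.X - Polynomial.C r) * Φ ^ (2 * N - 1)
    with hΘ
  have hΘt : aeval t Θ = (aeval t Φ * ε₄) ^ (ℓ ^ a) := by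
    have h1 : aeval t (Polynomial.C c * (Polynomial.X - Polynomial.C r)) =
        PowerSeries.C (b ^ 2) * (1 - PowerSeries.C (1728 : ZMod ℓ) * t) := by
      rw [map_mul, map_sub, aeval_X, aeval_C, aeval_C]
      have e1 : algebraMap (ZMod ℓ) (PowerSeries (ZMod ℓ)) c =
          PowerSeries.C (b ^ 2) * (-PowerSeries.C (1728 : ZMod ℓ)) := by
        rw [hc, map_mul, map_neg]; rfl
      have e2 : PowerSeries.C (1728 : ZMod ℓ) * algebraMap (ZMod ℓ) (PowerSeries (ZMod ℓ)) r =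
          1 := by
        show PowerSeries.C (1728 : ZMod ℓ) * PowerSeries.C r = 1
        rw [← map_mul, hr, mul_inv_cancel₀ h1728ne, map_one]
      rw [e1]
      calc PowerSeries.C (b ^ 2) * (-PowerSeries.C (1728 : ZMod ℓ)) *
            (t - algebraMap (ZMod ℓ) (PowerSeries (ZMod ℓ)) r)
          = PowerSeries.C (b ^ 2) * (PowerSeries.C (1728 : ZMod ℓ) *
              algebraMap (ZMod ℓ) (PowerSeries (ZMod ℓ)) r -
              PowerSeries.C (1728 : ZMod ℓ) * t) := by ring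
        _ = _ := by rw [e2]
    have e3 : aeval t Φ ^ (2 * N + 1) = aeval t Φ ^ 2 * aeval t Φ ^ (2 * N - 1) := by
      rw [← pow_add]; congr 1; omega
    rw [hΘ, map_mul, h1, h8, map_pow, hMN, mul_pow, e3]
    ring
  obtain ⟨Θ₁, hΘ₁⟩ := s16cc_ins ℓ t ht0 ht1 a Θ _ hΘt
  -- root multiplicities at `r`
  have hlin0 : Polynomial.C c * (Polynomial.X - Polynomial.C r) ≠ 0 :=
    mul_ne_zero (Polynomial.C_ne_zero.mpr hc0) (Polynomial.X_sub_C_ne_zero r)
  have hΘ0 : Θ ≠ 0 := mul_ne_zero hlin0 (pow_ne_zero _ hΦ0)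
  have hΘ₁0 : Θ₁ ≠ 0 := by
    intro h0
    rw [h0, zero_pow (by omega)] at hΘ₁
    exact hΘ0 hΘ₁
  have hm1 : rootMultiplicity r Θ = 1 + (2 * N - 1) * rootMultiplicity r Φ := by
    rw [hΘ, rootMultiplicity_mul (by rw [← hΘ]; exact hΘ0), rootMultiplicity_mul hlin0,
      rootMultiplicity_C, rootMultiplicity_X_sub_C_self, zero_add,
      s16cc_rootMultiplicity_pow Φ hΦ0]
  have hm2 : rootMultiplicity r Θ = ℓ ^ a * rootMultiplicity r Θ₁ := by
    rw [hΘ₁, s16cc_rootMultiplicity_pow Θ₁ hΘ₁0]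
  have hv : rootMultiplicity r Φ ≤ N := by
    have h1 := natDegree_le_of_dvd (pow_rootMultiplicity_dvd Φ r) hΦ0
    rw [natDegree_pow, natDegree_X_sub_C, mul_one] at h1
    exact h1.trans hΦdeg
  refine s16cc_arith N (rootMultiplicity r Φ) (rootMultiplicity r Θ₁) hN2 hv ?_
  rw [← hMN, ← hm2, hm1]
  congr 2
  omega

end Main

end Fermat.Agent.S16
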