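/-
S16 / UB core (helper11): the coefficient ring `ℤ_(ℓ)` (as a subring of `ℚ`), its embedding into `ℂ`
and its reduction to `ZMod ℓ`.
-/
import Mathlib

set_option autoImplicit false

noncomputable section

namespace Fermat.Agent.S16

variable (ℓ : ℕ) [hℓ : Fact ℓ.Prime]

/-- `ℤ_(ℓ)`: the rationals that are `ℓ`-adically integral. -/
def s16ucZl : Subring ℚ := (PadicInt.subring ℓ).comap (Rat.castHom ℚ_[ℓ])

variable {ℓ}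

theorem s16uc_mem_zl_iff_norm {r : ℚ} : r ∈ s16ucZl ℓ ↔ ‖(r : ℚ_[ℓ])‖ ≤ 1 := Iff.rfl

theorem s16uc_mem_zl_iff {r : ℚ} : r ∈ s16ucZl ℓ ↔ 0 ≤ padicValRat ℓ r := by
  rw [s16uc_mem_zl_iff_norm, Padic.norm_le_one_iff_val_nonneg, Padic.valuation_ratCast]

theorem s16uc_mem_zl_of_den {r : ℚ} (h : ¬ ℓ ∣ r.den) : r ∈ s16ucZl ℓ :=
  s16uc_mem_zl_iff_norm.mpr (Padic.norm_rat_le_one h)

theorem s16uc_intCast_mem (n : ℤ) : (n : ℚ) ∈ s16ucZl ℓ := intCast_mem _ n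

theorem s16uc_natCast_mem (n : ℕ) : (n : ℚ) ∈ s16ucZl ℓ := natCast_mem _ n

/-- the inverse of an integer prime to `ℓ` is `ℓ`-integral -/
theorem s16uc_inv_natCast_mem {n : ℕ} (hn : ¬ ℓ ∣ n) : ((n : ℚ))⁻¹ ∈ s16ucZl ℓ := by
  rw [s16uc_mem_zl_iff, padicValRat.inv]
  have : padicValRat ℓ (n : ℚ) = 0 := by
    rw [padicValRat.of_nat]
    exact_mod_cast padicValNat.eq_zero_of_not_dvd hn
  rw [this, neg_zero]

/-- an `ℓ`-adic valuation `≥ e` means divisibility by `ℓ ^ e` in `ℤ_(ℓ)` -/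
theorem s16uc_exists_eq_pow_mul {r : ℚ} {e : ℕ} (h : r = 0 ∨ (e : ℤ) ≤ padicValRat ℓ r) :
    ∃ s ∈ s16ucZl ℓ, r = (ℓ : ℚ) ^ e * s := by
  rcases eq_or_ne r 0 with rfl | hr
  · exact ⟨0, zero_mem _, by simp⟩
  · have h' : (e : ℤ) ≤ padicValRat ℓ r := h.resolve_left hr
    have hℓ0 : (ℓ : ℚ) ≠ 0 := by exact_mod_cast hℓ.out.ne_zero
    refine ⟨r / (ℓ : ℚ) ^ e, ?_, by field_simp⟩
    rw [s16uc_mem_zl_iff, padicValRat.div hr (pow_ne_zero _ hℓ0), padicValRat.pow,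
      padicValRat.self hℓ.out.one_lt]
    simpa using h'

variable (ℓ)

/-- the embedding `ℤ_(ℓ) → ℂ` -/
def s16ucIota : ↥(s16ucZl ℓ) →+* ℂ := (Rat.castHom ℂ).comp (s16ucZl ℓ).subtype

theorem s16ucIota_apply (x : ↥(s16ucZl ℓ)) : s16ucIota ℓ x = ((x : ℚ) : ℂ) := rfl

theorem s16ucIota_injective : Function.Injective (s16ucIota ℓ) := by
  intro x y h
  apply Subtype.ext
  have : ((x : ℚ) : ℂ) = ((y : ℚ) : ℂ) := h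
  exact_mod_cast this

/-- `ℤ_(ℓ) → ℤ_ℓ` -/
def s16ucToPadicInt : ↥(s16ucZl ℓ) →+* ℤ_[ℓ] where
  toFun x := ⟨((x : ℚ) : ℚ_[ℓ]), s16uc_mem_zl_iff_norm.mp x.2⟩
  map_one' := by
    apply Subtype.ext
    show (((1 : ↥(s16ucZl ℓ)) : ℚ) : ℚ_[ℓ]) = 1
    simp
  map_mul' x y := by
    apply Subtype.ext
    show (((x * y : ↥(s16ucZl ℓ)) : ℚ) : ℚ_[ℓ]) = ((x : ℚ) : ℚ_[ℓ]) * ((y : ℚ) : ℚ_[ℓ])
    push_cast
    rfl
  map_zero' := by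
    apply Subtype.ext
    show (((0 : ↥(s16ucZl ℓ)) : ℚ) : ℚ_[ℓ]) = 0
    simp
  map_add' x y := by
    apply Subtype.ext
    show (((x + y : ↥(s16ucZl ℓ)) : ℚ) : ℚ_[ℓ]) = ((x : ℚ) : ℚ_[ℓ]) + ((y : ℚ) : ℚ_[ℓ])
    push_cast
    rfl

/-- the reduction `ℤ_(ℓ) → 𝔽_ℓ` -/
def s16ucRed : ↥(s16ucZl ℓ) →+* ZMod ℓ := PadicInt.toZMod.comp (s16ucToPadicInt ℓ)

theorem s16ucRed_natCast (n : ℕ) : s16ucRed ℓ (n : ↥(s16ucZl ℓ)) = (n : ZMod ℓ) := map_natCast _ n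

theorem s16ucRed_intCast (n : ℤ) : s16ucRed ℓ (n : ↥(s16ucZl ℓ)) = (n : ZMod ℓ) := map_intCast _ n

theorem s16ucRed_self : s16ucRed ℓ (ℓ : ↥(s16ucZl ℓ)) = 0 := by
  rw [s16ucRed_natCast, ZMod.natCast_self]

theorem s16ucRed_self_mul (x : ↥(s16ucZl ℓ)) : s16ucRed ℓ ((ℓ : ↥(s16ucZl ℓ)) * x) = 0 := by
  rw [map_mul, s16ucRed_self, zero_mul]

theorem s16ucRed_natCast_ne_zero {n : ℕ} (hn : ¬ ℓ ∣ n) : s16ucRed ℓ (n : ↥(s16ucZl ℓ)) ≠ 0 := by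
  rw [s16ucRed_natCast, Ne, ZMod.natCast_eq_zero_iff]
  exact hn

/-- elements of `ℤ_(ℓ)` from rationals -/
def s16ucMk (r : ℚ) (h : r ∈ s16ucZl ℓ) : ↥(s16ucZl ℓ) := ⟨r, h⟩

/-- a natural number prime to `ℓ` is a unit of `ℤ_(ℓ)` -/
theorem s16uc_isUnit_natCast {n : ℕ} (hn : ¬ ℓ ∣ n) : IsUnit (n : ↥(s16ucZl ℓ)) := by
  have hn0 : (n : ℚ) ≠ 0 := by
    rintro h0
    have : n = 0 := by exact_mod_cast h0
    exact hn (this ▸ dvd_zero ℓ)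
  refine IsUnit.of_mul_eq_one (⟨((n : ℚ))⁻¹, s16uc_inv_natCast_mem hn⟩ : ↥(s16ucZl ℓ)) ?_
  apply Subtype.ext
  push_cast
  exact mul_inv_cancel₀ hn0

end Fermat.Agent.S16
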