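/-
S16 / UB core (helper11): the ENGINE for the hard cases (c), (h), (g).

If `Y` is a form of weight `w` on `Γ₀(p)` whose two expansions (at `∞` in `q`, and of `Y|S` in `q^{1/p}`)
have `ℓ`-integral coefficients and are both congruent mod `ℓ` to the same level-one series `R₀`
(resp. `R₀(q_p^p)`), and `p + 1 = ℓ^a b`, then `Tr(Y^(ℓ^a)) / ℓ^a` is a level-one modular form of weight
`ℓ^a w` whose `q`-expansion is `ℓ`-integral and congruent to `b R₀^(ℓ^a)` mod `ℓ`.
-/
import Fermat.Agent.S16.UB.Trace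
import Fermat.Agent.S16.UB.Zl

set_option autoImplicit false
set_option linter.style.haveILetI false
set_option linter.unusedSectionVars false

noncomputable section

namespace Fermat.Agent.S16

open UpperHalfPlane ModularForm ModularGroup CongruenceSubgroup Matrix.SpecialLinearGroup
  Fermat.Agent.S24 Fermat.Agent.S20 EisensteinSeries Filter ModularCurve
open scoped MatrixGroups ModularForm Manifold Real Topology

/-! ### algebra of series -/

section alg

variable {R : Type*} [CommRing R]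

theorem s16ubContract_qExpand (n : ℕ) [NeZero n] (X : LaurentSeries R) :
    s16ubContract n (qExpand R n X) = X := by
  ext m
  simp

theorem s16uc_natCast_mul_coeff (k : ℕ) (X : LaurentSeries R) (m : ℤ) :
    ((k : LaurentSeries R) * X).coeff m = (k : R) * X.coeff m := by
  have h : (k : LaurentSeries R) = HahnSeries.C (k : R) := (map_natCast HahnSeries.C k).symm
  rw [h, HahnSeries.C_mul_eq_smul, HahnSeries.coeff_smul, smul_eq_mul]

theorem s16ubContract_natCast_mul (n : ℕ) [NeZero n] (k : ℕ) (X : LaurentSeries R) :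
    s16ubContract n ((k : LaurentSeries R) * X) = (k : LaurentSeries R) * s16ubContract n X := by
  ext m
  rw [s16ubContract_coeff, s16uc_natCast_mul_coeff, s16uc_natCast_mul_coeff, s16ubContract_coeff]

theorem s16uc_coeffMap_contract {S : Type*} [CommRing S] (f : R →+* S) (n : ℕ) [NeZero n]
    (X : LaurentSeries R) : coeffMap f (s16ubContract n X) = s16ubContract n (coeffMap f X) := by
  ext m
  simp

/-- the algebraic heart: `ℓ^a`-th powers of series congruent mod `ℓ`. -/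
theorem s16uc_engine_alg (p ℓ a b : ℕ) [NeZero p] (_hℓ : ℓ.Prime) (hab : p + 1 = ℓ ^ a * b)
    (R₀ A B : LaurentSeries R) (hA : (ℓ : LaurentSeries R) ∣ A - R₀)
    (hB : (ℓ : LaurentSeries R) ∣ B - qExpand R p R₀) :
    ∃ z : LaurentSeries R, A ^ (ℓ ^ a) + (p : LaurentSeries R) * s16ubContract p (B ^ (ℓ ^ a)) =
      ((ℓ ^ a : ℕ) : LaurentSeries R) * ((b : LaurentSeries R) * R₀ ^ (ℓ ^ a) +
        (ℓ : LaurentSeries R) * z) := by
  obtain ⟨z₁, hz₁⟩ := dvd_sub_pow_of_dvd_sub hA a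
  obtain ⟨z₂, hz₂⟩ := dvd_sub_pow_of_dvd_sub hB a
  refine ⟨z₁ + (p : LaurentSeries R) * s16ubContract p z₂, ?_⟩
  have h1 : A ^ (ℓ ^ a) = R₀ ^ (ℓ ^ a) + (ℓ : LaurentSeries R) ^ (a + 1) * z₁ := by
    rw [← hz₁]; ring
  have h2 : B ^ (ℓ ^ a) = qExpand R p (R₀ ^ (ℓ ^ a)) +
      ((ℓ ^ (a + 1) : ℕ) : LaurentSeries R) * z₂ := by
    rw [map_pow]
    push_cast
    rw [← hz₂]; ring
  rw [h1, h2, s16ubContract_add, s16ubContract_qExpand, s16ubContract_natCast_mul]
  have h3 : ((p : LaurentSeries R) + 1) = (ℓ : LaurentSeries R) ^ a * (b : LaurentSeries R) := by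
    exact_mod_cast congrArg (Nat.cast : ℕ → LaurentSeries R) hab
  push_cast
  linear_combination (R₀ ^ (ℓ ^ a)) * h3

end alg

/-! ### closure properties of `S16ubForm` -/

section forms

variable (p : ℕ) [hp : Fact p.Prime]

theorem S16ubForm.const_smul {k : ℤ} {f : ℍ → ℂ} (hf : S16ubForm p k f) (c : ℂ) :
    S16ubForm p k (c • f) where
  inv γ hγ := by rw [SL_smul_slash, hf.inv γ hγ]
  hol := hf.hol.const_smul c
  bdd γ := by
    rw [SL_smul_slash]
    exact (hf.bdd γ).const_smul_left c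

theorem S16ubForm.add {k : ℤ} {f g : ℍ → ℂ} (hf : S16ubForm p k f) (hg : S16ubForm p k g) :
    S16ubForm p k (f + g) where
  inv γ hγ := by rw [SlashAction.add_slash, hf.inv γ hγ, hg.inv γ hγ]
  hol := hf.hol.add hg.hol
  bdd γ := by
    rw [SlashAction.add_slash]
    exact (hf.bdd γ).add (hg.bdd γ)

theorem S16ubForm.neg {k : ℤ} {f : ℍ → ℂ} (hf : S16ubForm p k f) : S16ubForm p k (-f) := by
  have := hf.const_smul p (-1)
  simpa using this

theorem S16ubForm.sub {k : ℤ} {f g : ℍ → ℂ} (hf : S16ubForm p k f) (hg : S16ubForm p k g) :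
    S16ubForm p k (f - g) := by
  rw [sub_eq_add_neg]
  exact hf.add p (hg.neg p)

theorem s16ub_pow_slash (f : ℍ → ℂ) (w : ℤ) (m : ℕ) (γ : SL(2, ℤ)) :
    (f ^ m) ∣[(m : ℤ) * w] γ = (f ∣[w] γ) ^ m := by
  induction m with
  | zero =>
    simp only [pow_zero, Nat.cast_zero, zero_mul]
    exact is_invariant_one γ
  | succ m ih =>
    have h : ((m + 1 : ℕ) : ℤ) * w = (m : ℤ) * w + w := by push_cast; ring
    rw [pow_succ, pow_succ, h, mul_slash_SL2, ih]

theorem S16ubForm.pow {w : ℤ} {f : ℍ → ℂ} (hf : S16ubForm p w f) (m : ℕ) :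
    S16ubForm p ((m : ℤ) * w) (f ^ m) where
  inv γ hγ := by rw [s16ub_pow_slash, hf.inv γ hγ]
  hol := by
    induction m with
    | zero =>
      rw [pow_zero]
      exact (mdifferentiable_const : MDiff (fun _ : ℍ => (1 : ℂ)))
    | succ m ih => rw [pow_succ]; exact ih.mul hf.hol
  bdd γ := by
    rw [s16ub_pow_slash]
    induction m with
    | zero =>
      simp only [pow_zero]
      exact Filter.const_boundedAtFilter _ (1 : ℂ)
    | succ m ih => rw [pow_succ]; exact ih.mul (hf.bdd γ)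

theorem s16ub_hasCuspExp_pow {h : ℕ} [NeZero h] {f : ℍ → ℂ} {S : LaurentSeries ℂ}
    (hS : HasCuspExp h f S) (n : ℕ) : HasCuspExp h (f ^ n) (S ^ n) := by
  induction n with
  | zero =>
    have := HasCuspExp.const (h := h) (1 : ℂ)
    rw [map_one] at this
    rw [pow_zero, pow_zero]
    exact this
  | succ n ih =>
    rw [pow_succ, pow_succ]
    exact ih.mul hS

end forms

/-! ### the engine -/

section engine

variable (p : ℕ) [hp : Fact p.Prime] (ℓ : ℕ) [hℓ : Fact ℓ.Prime]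

/-- **ENGINE.** -/
theorem s16uc_engine (a b : ℕ) (hab : p + 1 = ℓ ^ a * b) (w : ℤ) {Y : ℍ → ℂ}
    (hY : S16ubForm p w Y) (R₀ A B : LaurentSeries ↥(s16ucZl ℓ))
    (hA : HasCuspExp 1 Y (coeffMap (s16ucIota ℓ) A))
    (hAc : (ℓ : LaurentSeries ↥(s16ucZl ℓ)) ∣ A - R₀)
    (hB : HasCuspExp p (Y ∣[w] S) (coeffMap (s16ucIota ℓ) B))
    (hBc : (ℓ : LaurentSeries ↥(s16ucZl ℓ)) ∣ B - qExpand ↥(s16ucZl ℓ) p R₀) :
    ∃ (f : ModularForm 𝒮ℒ (((ℓ ^ a : ℕ) : ℤ) * w)) (z : LaurentSeries ↥(s16ucZl ℓ)),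
      HasCuspExp 1 (f : ℍ → ℂ) (coeffMap (s16ucIota ℓ)
        ((b : LaurentSeries ↥(s16ucZl ℓ)) * R₀ ^ (ℓ ^ a) + (ℓ : LaurentSeries ↥(s16ucZl ℓ)) * z)) := by
  obtain ⟨z, hz⟩ := s16uc_engine_alg p ℓ a b hℓ.out hab R₀ A B hAc hBc
  have hYm := hY.pow p (ℓ ^ a)
  have hAm := s16ub_hasCuspExp_pow hA (ℓ ^ a)
  have hBm := s16ub_hasCuspExp_pow hB (ℓ ^ a)
  rw [← s16ub_pow_slash] at hBm
  have htr := s16ub_hasCuspExp_tr p _ hAm hBm
  have hℓa : ((ℓ ^ a : ℕ) : ℂ) ≠ 0 := by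
    exact_mod_cast (pow_pos hℓ.out.pos a).ne'
  refine ⟨(((ℓ ^ a : ℕ) : ℂ))⁻¹ • s16ubTrForm p hYm, z, ?_⟩
  have hser : coeffMap (s16ucIota ℓ) A ^ (ℓ ^ a) +
      (p : ℂ) • s16ubContract p (coeffMap (s16ucIota ℓ) B ^ (ℓ ^ a)) =
      HahnSeries.C ((ℓ ^ a : ℕ) : ℂ) * coeffMap (s16ucIota ℓ)
        ((b : LaurentSeries ↥(s16ucZl ℓ)) * R₀ ^ (ℓ ^ a) +
          (ℓ : LaurentSeries ↥(s16ucZl ℓ)) * z) := by
    have := congrArg (coeffMap (s16ucIota ℓ)) hz
    rw [map_add, map_mul, map_pow, s16uc_coeffMap_contract, map_pow, map_natCast, map_mul,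
      map_natCast] at this
    rw [← HahnSeries.C_mul_eq_smul, map_natCast, map_natCast]
    exact this
  rw [hser] at htr
  have hc := (HasCuspExp.const (h := 1) (((ℓ ^ a : ℕ) : ℂ))⁻¹).mul htr
  rw [← mul_assoc, ← map_mul, inv_mul_cancel₀ hℓa, map_one, one_mul] at hc
  convert hc using 1
  ext τ
  rfl

end engine

end Fermat.Agent.S16
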