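/-
S16 / UB core (helper11): level-one forms with `ℓ`-integral `q`-expansion.

* `s16ucE4 R`, `s16ucE6 R` : the `q`-expansions of `E₄`, `E₆` over any ring;
* `s16uc_qep` : if `f` has weight `k`, `k + 4x + 6y = 12N`, and `ℓ`-integral expansion `X`, then
  `X e₄^x e₆^y Δ^{-N}` is a polynomial in `j` with `ℓ`-integral coefficients (S28 integral QEP);
* `s16uc_sturm` : the Sturm bound mod `ℓ` in level one.
-/
import Fermat.Agent.S16.UB.Engine
import Fermat.Agent.S28.InvariantRing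
import Fermat.Agent.S28.DeltaExp

set_option autoImplicit false
set_option linter.style.haveILetI false
set_option linter.unusedSectionVars false

noncomputable section

namespace Fermat.Agent.S16

open UpperHalfPlane ModularForm ModularGroup CongruenceSubgroup Matrix.SpecialLinearGroup
  Fermat.Agent.S24 Fermat.Agent.S20 Fermat.Agent.S28 EisensteinSeries Filter ModularCurve
open scoped MatrixGroups ModularForm Manifold Real Topology

/-! ### the series of `E₄`, `E₆` -/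

/-- `1 - 504 ∑ σ₅(n) qⁿ` -/
def s16ucE6ps : PowerSeries ℤ :=
  PowerSeries.mk fun n => if n = 0 then 1 else -504 * ∑ d ∈ n.divisors, (d : ℤ) ^ 5

/-- an integral power series over any ring, as a Laurent series -/
def s16ucOfInt (R : Type*) [CommRing R] (P : PowerSeries ℤ) : LaurentSeries R :=
  HahnSeries.ofPowerSeries ℤ R (P.map (Int.castRingHom R))

theorem s16ucOfInt_eq (R : Type*) [CommRing R] (P : PowerSeries ℤ) :
    s16ucOfInt R P = HahnSeries.single (0 : ℤ) (1 : R) *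
      HahnSeries.ofPowerSeries ℤ R (P.map (Int.castRingHom R)) := by
  have : (HahnSeries.single (0 : ℤ) (1 : R) : LaurentSeries R) = 1 := rfl
  rw [this, one_mul, s16ucOfInt]

theorem s16uc_coeffMap_ofInt {R S : Type*} [CommRing R] [CommRing S] (f : R →+* S)
    (P : PowerSeries ℤ) : coeffMap f (s16ucOfInt R P) = s16ucOfInt S P := by
  rw [s16ucOfInt_eq, s16ucOfInt_eq, dexp_coeffMap_shift]

theorem s16ucOfInt_coeff_nat (R : Type*) [CommRing R] (P : PowerSeries ℤ) (n : ℕ) :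
    (s16ucOfInt R P).coeff (n : ℤ) = ((PowerSeries.coeff n P : ℤ) : R) := by
  rw [s16ucOfInt, HahnSeries.ofPowerSeries_apply_coeff, PowerSeries.coeff_map, eq_intCast]

theorem s16ucOfInt_coeff_neg (R : Type*) [CommRing R] (P : PowerSeries ℤ) {m : ℤ} (hm : m < 0) :
    (s16ucOfInt R P).coeff m = 0 := by
  rw [s16ucOfInt, ofPowerSeries_coeff_of_neg _ hm]

theorem s16ucOfInt_mul (R : Type*) [CommRing R] (P Q : PowerSeries ℤ) :
    s16ucOfInt R (P * Q) = s16ucOfInt R P * s16ucOfInt R Q := by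
  rw [s16ucOfInt, s16ucOfInt, s16ucOfInt, map_mul, map_mul]

theorem s16ucOfInt_one (R : Type*) [CommRing R] : s16ucOfInt R 1 = 1 := by
  rw [s16ucOfInt, map_one, map_one]

theorem s16ucOfInt_pow (R : Type*) [CommRing R] (P : PowerSeries ℤ) (n : ℕ) :
    s16ucOfInt R (P ^ n) = s16ucOfInt R P ^ n := by
  rw [s16ucOfInt, s16ucOfInt, map_pow, map_pow]

/-- `e₄` over any ring -/
def s16ucE4 (R : Type*) [CommRing R] : LaurentSeries R := s16ucOfInt R eisenstein4

/-- `e₆` over any ring -/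
def s16ucE6 (R : Type*) [CommRing R] : LaurentSeries R := s16ucOfInt R s16ucE6ps

theorem s16uc_qExpansion_E6 :
    qExpansion 1 E₆ = PowerSeries.map (Int.castRingHom ℂ) s16ucE6ps := by
  ext m
  rw [EisensteinSeries.E_qExpansion_coeff (by norm_num) ⟨3, rfl⟩, PowerSeries.coeff_map,
    eq_intCast, s16ucE6ps, PowerSeries.coeff_mk]
  by_cases hm : m = 0
  · simp [hm]
  · rw [if_neg hm, if_neg hm, show bernoulli 6 = 1 / 42 by decide +kernel,
      ArithmeticFunction.sigma_apply]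
    push_cast
    norm_num

theorem s16uc_hasCuspExp_levelOne {k : ℤ} (f : ModularForm 𝒮ℒ k) :
    HasCuspExp 1 (f : ℍ → ℂ) (HahnSeries.ofPowerSeries ℤ ℂ (qExpansion 1 f)) :=
  haveI : Fact (Nat.Prime 2) := ⟨Nat.prime_two⟩
  s16ub_hasCuspExp_form 2 (s16ubForm_of_levelOne 2 f)

theorem s16uc_hasCuspExp_E4 : HasCuspExp 1 (E₄ : ℍ → ℂ) (s16ucE4 ℂ) := by
  have := s16uc_hasCuspExp_levelOne E₄
  rwa [jexp_qExpansion_E4] at this

theorem s16uc_hasCuspExp_E6 : HasCuspExp 1 (E₆ : ℍ → ℂ) (s16ucE6 ℂ) := by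
  have := s16uc_hasCuspExp_levelOne E₆
  rwa [s16uc_qExpansion_E6] at this

/-! ### the weight zero quotient -/

section qep

variable (ℓ : ℕ) [hℓ : Fact ℓ.Prime]

theorem s16uc_apply_smul_of_slash {k : ℤ} {F : ℍ → ℂ} (hF : ∀ γ : SL(2, ℤ), F ∣[k] γ = F)
    (γ : SL(2, ℤ)) (τ : ℍ) : F (γ • τ) = F τ * denom γ τ ^ k := by
  have h := congrFun (hF γ) τ
  rw [SL_slash_apply] at h
  have hd : denom γ τ ≠ 0 := denom_ne_zero γ τ
  rw [← h, mul_assoc, ← zpow_add₀ hd, neg_add_cancel, zpow_zero, mul_one]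

/-- **integral QEP in weight zero.** -/
theorem s16uc_qep (k : ℤ) (x y N : ℕ) (hk : k + 4 * x + 6 * y = 12 * N) (f : ModularForm 𝒮ℒ k)
    (X : LaurentSeries ↥(s16ucZl ℓ)) (hX : HasCuspExp 1 (f : ℍ → ℂ) (coeffMap (s16ucIota ℓ) X)) :
    ∃ P : Polynomial ↥(s16ucZl ℓ),
      X * s16ucE4 ↥(s16ucZl ℓ) ^ x * s16ucE6 ↥(s16ucZl ℓ) ^ y * deltaInvSer ↥(s16ucZl ℓ) ^ N =
        Polynomial.aeval (jqModC ↥(s16ucZl ℓ)) P := by
  -- the numerator, of weight `12 N`
  set F : ℍ → ℂ := (f : ℍ → ℂ) * (E₄ : ℍ → ℂ) ^ x * (E₆ : ℍ → ℂ) ^ y with hF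
  have hFinv : ∀ γ : SL(2, ℤ), F ∣[(12 * N : ℤ)] γ = F := by
    intro γ
    have e : (12 * N : ℤ) = k + (x : ℤ) * 4 + (y : ℤ) * 6 := by rw [← hk]; ring
    rw [e, hF, mul_slash_SL2, mul_slash_SL2, s16ub_pow_slash, s16ub_pow_slash,
      slash_eq_of_levelOne, slash_eq_of_levelOne, slash_eq_of_levelOne]
  set D : ℍ → ℂ := (fun τ : ℍ => ModularForm.discriminant τ) ^ N with hD
  have hDinv : ∀ γ : SL(2, ℤ), D ∣[(12 * N : ℤ)] γ = D := by
    intro γ
    have e : (12 * N : ℤ) = (N : ℤ) * 12 := by ring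
    rw [e, hD, s16ub_pow_slash]
    congr 1
    exact discriminant_slash_SL γ
  have hFhol : MDiff F :=
    ((ModularFormClass.holo f).mul ((ModularFormClass.holo E₄).pow x)).mul
      ((ModularFormClass.holo E₆).pow y)
  have hΔhol : MDiff (fun τ : ℍ => (ModularForm.discriminant τ)⁻¹) := by
    have hΔ : MDiff (fun τ : ℍ => ModularForm.discriminant τ) :=
      ModularFormClass.holo CuspForm.discriminant
    intro τ
    exact (hΔ τ).inv (ModularForm.discriminant_ne_zero τ)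
  set h : HolRing := HolRing.mk' (F * (fun τ : ℍ => (ModularForm.discriminant τ)⁻¹) ^ N)
    (hFhol.mul (hΔhol.pow N)) with hh
  have hinv : ∀ γ : SL(2, ℤ), γ • h = h := by
    intro γ
    apply Subtype.ext
    funext τ
    rw [HolRing.smul_apply]
    show F (γ⁻¹ • τ) * ((ModularForm.discriminant (γ⁻¹ • τ))⁻¹) ^ N =
      F τ * ((ModularForm.discriminant τ)⁻¹) ^ N
    have h1 := s16uc_apply_smul_of_slash hFinv γ⁻¹ τ
    have h2 := s16uc_apply_smul_of_slash hDinv γ⁻¹ τ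
    simp only [hD, Pi.pow_apply] at h2
    have hd : denom (γ⁻¹ : SL(2, ℤ)) τ ^ (12 * N : ℤ) ≠ 0 :=
      zpow_ne_zero _ (denom_ne_zero _ τ)
    have hΔ0 : ModularForm.discriminant τ ^ N ≠ 0 :=
      pow_ne_zero _ (ModularForm.discriminant_ne_zero τ)
    rw [h1, inv_pow, inv_pow, h2]
    field_simp
  have hexp : HasCuspExp 1 (h : ℍ → ℂ) (coeffMap (s16ucIota ℓ)
      (X * s16ucE4 ↥(s16ucZl ℓ) ^ x * s16ucE6 ↥(s16ucZl ℓ) ^ y * deltaInvSer ↥(s16ucZl ℓ) ^ N)) := by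
    rw [map_mul, map_mul, map_mul, map_pow, map_pow, map_pow, coeffMap_deltaInvSer, s16ucE4, s16ucE6,
      s16uc_coeffMap_ofInt, s16uc_coeffMap_ofInt]
    exact ((hX.mul (s16ub_hasCuspExp_pow s16uc_hasCuspExp_E4 x)).mul
      (s16ub_hasCuspExp_pow s16uc_hasCuspExp_E6 y)).mul (s16ub_hasCuspExp_pow hasCuspExp_deltaInv N)
  obtain ⟨P, hP, -⟩ := exists_poly_of_invariant_ring (s16ucIota ℓ) (s16ucIota_injective ℓ) h hinv _ hexp
  exact ⟨P, hP⟩

end qep

end Fermat.Agent.S16
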