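/-
S16 / UB core (helper11): the Sturm bound mod `ℓ` in level one (via the integral QEP).
-/
import Fermat.Agent.S16.UB.Qep

set_option autoImplicit false
set_option linter.style.haveILetI false
set_option linter.unusedSectionVars false

noncomputable section

namespace Fermat.Agent.S16

open UpperHalfPlane ModularForm ModularGroup CongruenceSubgroup Matrix.SpecialLinearGroup
  Fermat.Agent.S24 Fermat.Agent.S20 Fermat.Agent.S28 EisensteinSeries Filter ModularCurve
open scoped MatrixGroups ModularForm Manifold Real Topology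

section series

variable {K : Type*} [CommRing K]

/-- the lowest coefficient of a polynomial in `j`. -/
theorem s16uc_aeval_coeff_neg_natDegree (P : Polynomial K) :
    (Polynomial.aeval (jqModC K) P).coeff (-(P.natDegree : ℤ)) = P.leadingCoeff := by
  rw [Polynomial.aeval_def, Polynomial.eval₂_eq_sum_range, HahnSeries.coeff_sum,
    Finset.sum_range_succ, Finset.sum_eq_zero, zero_add]
  · rw [invRing_algebraMap_eq_single, HahnSeries.coeff_single_zero_mul, coeff_jqModC_pow_self,
      mul_one]
    rfl
  · intro i hi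
    rw [invRing_algebraMap_eq_single, HahnSeries.coeff_single_zero_mul,
      coeff_jqModC_pow_of_lt K (by
        have := Finset.mem_range.mp hi
        omega), mul_zero]

theorem s16uc_coeffMap_aeval {S : Type*} [CommRing S] (φ : K →+* S) (P : Polynomial K) :
    coeffMap φ (Polynomial.aeval (jqModC K) P) = Polynomial.aeval (jqModC S) (P.map φ) := by
  have h : (algebraMap S (LaurentSeries S)).comp φ =
      (coeffMap φ).comp (algebraMap K (LaurentSeries K)) := by
    ext r : 1
    simp only [RingHom.comp_apply]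
    rw [invRing_algebraMap_eq_single, invRing_algebraMap_eq_single, coeffMap_single]
  rw [Polynomial.map_aeval_eq_aeval_map h, coeffMap_jqModC]

variable [IsDomain K]

/-- order of an integral power series with constant coefficient `1`. -/
theorem s16ucOfInt_ne_zero {P : PowerSeries ℤ} (hP : PowerSeries.constantCoeff P = 1) :
    s16ucOfInt K P ≠ 0 := by
  intro h
  have := s16ucOfInt_coeff_nat K P 0
  rw [h, PowerSeries.coeff_zero_eq_constantCoeff, hP] at this
  simp at this

theorem s16ucOfInt_order {P : PowerSeries ℤ} (hP : PowerSeries.constantCoeff P = 1) :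
    (s16ucOfInt K P).order = 0 := by
  have hne := s16ucOfInt_ne_zero (K := K) hP
  apply le_antisymm
  · apply HahnSeries.order_le_of_coeff_ne_zero
    have := s16ucOfInt_coeff_nat K P 0
    rw [PowerSeries.coeff_zero_eq_constantCoeff, hP] at this
    rw [show (0 : ℤ) = ((0 : ℕ) : ℤ) from rfl, this]
    simp
  · by_contra hlt
    push Not at hlt
    exact hne (HahnSeries.coeff_order_eq_zero.mp (s16ucOfInt_coeff_neg K P hlt))

theorem s16uc_deltaInvSer_ne_zero : deltaInvSer K ≠ 0 := by
  intro h
  have := deltaInvSer_coeff_neg_one K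
  rw [h] at this
  simp at this

theorem s16uc_deltaInvSer_order : (deltaInvSer K).order = -1 := by
  have hne := s16uc_deltaInvSer_ne_zero (K := K)
  apply le_antisymm
  · apply HahnSeries.order_le_of_coeff_ne_zero
    rw [deltaInvSer_coeff_neg_one]
    exact one_ne_zero
  · by_contra hlt
    push Not at hlt
    exact hne (HahnSeries.coeff_order_eq_zero.mp (deltaInvSer_coeff_of_lt K hlt))

end series

section sturm

variable (ℓ : ℕ) [hℓ : Fact ℓ.Prime]

/-- **Sturm bound mod `ℓ`, level one**: a level-one form of weight `k = 12 N - 4 x` with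
`ℓ`-integral `q`-expansion whose coefficients up to `N` vanish mod `ℓ` vanishes mod `ℓ`. -/
theorem s16uc_sturm (k : ℤ) (x N : ℕ) (hk : k + 4 * x = 12 * N) (f : ModularForm 𝒮ℒ k)
    (X : LaurentSeries ↥(s16ucZl ℓ)) (hX : HasCuspExp 1 (f : ℍ → ℂ) (coeffMap (s16ucIota ℓ) X))
    (hlow : ∀ n : ℤ, n ≤ N → s16ucRed ℓ (X.coeff n) = 0) :
    coeffMap (s16ucRed ℓ) X = 0 := by
  obtain ⟨P, hP⟩ := s16uc_qep ℓ k x 0 N (by rw [← hk]; push_cast; ring) f X hX
  rw [pow_zero, mul_one] at hP
  have hP' := congrArg (coeffMap (s16ucRed ℓ)) hP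
  rw [s16uc_coeffMap_aeval, map_mul, map_mul, map_pow, map_pow, coeffMap_deltaInvSer, s16ucE4,
    s16uc_coeffMap_ofInt] at hP'
  by_contra hne
  set Xb := coeffMap (s16ucRed ℓ) X with hXb
  have he4 : s16ucOfInt (ZMod ℓ) eisenstein4 ≠ 0 := s16ucOfInt_ne_zero constantCoeff_eisenstein4
  have hdel : deltaInvSer (ZMod ℓ) ≠ 0 := s16uc_deltaInvSer_ne_zero
  have hS : Xb * s16ucOfInt (ZMod ℓ) eisenstein4 ^ x * deltaInvSer (ZMod ℓ) ^ N ≠ 0 :=
    mul_ne_zero (mul_ne_zero hne (pow_ne_zero _ he4)) (pow_ne_zero _ hdel)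
  have hord : (Xb * s16ucOfInt (ZMod ℓ) eisenstein4 ^ x * deltaInvSer (ZMod ℓ) ^ N).order =
      Xb.order - N := by
    rw [HahnSeries.order_mul (mul_ne_zero hne (pow_ne_zero _ he4)) (pow_ne_zero _ hdel),
      HahnSeries.order_mul hne (pow_ne_zero _ he4), HahnSeries.order_pow, HahnSeries.order_pow,
      s16ucOfInt_order constantCoeff_eisenstein4, s16uc_deltaInvSer_order]
    simp
    ring
  have hXord : (N : ℤ) < Xb.order := by
    by_contra hle
    push Not at hle
    apply hne
    apply HahnSeries.coeff_order_eq_zero.mp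
    rw [hXb, coeffMap_coeff]
    exact hlow _ hle
  have hPne : P.map (s16ucRed ℓ) ≠ 0 := by
    intro h0
    rw [h0, map_zero] at hP'
    exact hS hP'
  have hle : (Polynomial.aeval (jqModC (ZMod ℓ)) (P.map (s16ucRed ℓ))).order ≤
      -((P.map (s16ucRed ℓ)).natDegree : ℤ) := by
    apply HahnSeries.order_le_of_coeff_ne_zero
    rw [s16uc_aeval_coeff_neg_natDegree]
    exact Polynomial.leadingCoeff_ne_zero.mpr hPne
  rw [← hP', hord] at hle
  omega

end sturm

end Fermat.Agent.S16
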