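/-
S16 / UB core (helper11): forms on `Γ₀(p)` with `ℓ`-integral expansions at BOTH cusps.

`S16ucPair p ℓ w Y A B` : `Y` is a form of weight `w` on `Γ₀(p)`, with `Y = A(q)` and `Y|S = B(q^{1/p})`,
`A, B` Laurent series over `ℤ_(ℓ)`.  Closure under `+, -, *`, scalars of `ℤ_(ℓ)`, exact division by integers,
level-one forms, and the basic pair of a weight two form `G` on `Γ₀(p)`.
-/
import Fermat.Agent.S16.UB.Engine
import Fermat.Prelude.Thm_ModularCurve_coeffMap_qExpand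

set_option autoImplicit false
set_option linter.style.haveILetI false
set_option linter.unusedSectionVars false

noncomputable section

namespace Fermat.Agent.S16

open UpperHalfPlane ModularForm ModularGroup CongruenceSubgroup Matrix.SpecialLinearGroup
  Fermat.Agent.S24 Fermat.Agent.S20 EisensteinSeries Filter ModularCurve
open scoped MatrixGroups ModularForm Manifold Real Topology

variable (p : ℕ) [hp : Fact p.Prime] (ℓ : ℕ) [hℓ : Fact ℓ.Prime]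

/-- a form on `Γ₀(p)` with `ℓ`-integral expansions at both cusps -/
structure S16ucPair (w : ℤ) (Y : ℍ → ℂ) (A B : LaurentSeries ↥(s16ucZl ℓ)) : Prop where
  form : S16ubForm p w Y
  expA : HasCuspExp 1 Y (coeffMap (s16ucIota ℓ) A)
  expB : HasCuspExp p (Y ∣[w] S) (coeffMap (s16ucIota ℓ) B)

variable {p ℓ}

theorem S16ucPair.congr {w w' : ℤ} {Y Y' : ℍ → ℂ} {A A' B B' : LaurentSeries ↥(s16ucZl ℓ)}
    (h : S16ucPair p ℓ w Y A B) (hw : w = w') (hY : Y = Y') (hA : A = A') (hB : B = B') :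
    S16ucPair p ℓ w' Y' A' B' := by
  subst hw hY hA hB
  exact h

theorem S16ucPair.mul {w₁ w₂ : ℤ} {Y₁ Y₂ : ℍ → ℂ} {A₁ A₂ B₁ B₂ : LaurentSeries ↥(s16ucZl ℓ)}
    (h₁ : S16ucPair p ℓ w₁ Y₁ A₁ B₁) (h₂ : S16ucPair p ℓ w₂ Y₂ A₂ B₂) :
    S16ucPair p ℓ (w₁ + w₂) (Y₁ * Y₂) (A₁ * A₂) (B₁ * B₂) where
  form := h₁.form.mul p h₂.form
  expA := by
    rw [map_mul]
    exact h₁.expA.mul h₂.expA
  expB := by
    rw [map_mul, mul_slash_SL2]
    exact h₁.expB.mul h₂.expB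

theorem S16ucPair.add {w : ℤ} {Y₁ Y₂ : ℍ → ℂ} {A₁ A₂ B₁ B₂ : LaurentSeries ↥(s16ucZl ℓ)}
    (h₁ : S16ucPair p ℓ w Y₁ A₁ B₁) (h₂ : S16ucPair p ℓ w Y₂ A₂ B₂) :
    S16ucPair p ℓ w (Y₁ + Y₂) (A₁ + A₂) (B₁ + B₂) where
  form := h₁.form.add p h₂.form
  expA := by
    rw [map_add]
    exact h₁.expA.add h₂.expA
  expB := by
    rw [map_add, SlashAction.add_slash]
    exact h₁.expB.add h₂.expB

theorem S16ucPair.neg {w : ℤ} {Y : ℍ → ℂ} {A B : LaurentSeries ↥(s16ucZl ℓ)}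
    (h : S16ucPair p ℓ w Y A B) : S16ucPair p ℓ w (-Y) (-A) (-B) where
  form := h.form.neg p
  expA := by
    rw [map_neg]
    exact h.expA.neg
  expB := by
    rw [map_neg, SlashAction.neg_slash]
    exact h.expB.neg

theorem S16ucPair.sub {w : ℤ} {Y₁ Y₂ : ℍ → ℂ} {A₁ A₂ B₁ B₂ : LaurentSeries ↥(s16ucZl ℓ)}
    (h₁ : S16ucPair p ℓ w Y₁ A₁ B₁) (h₂ : S16ucPair p ℓ w Y₂ A₂ B₂) :
    S16ucPair p ℓ w (Y₁ - Y₂) (A₁ - A₂) (B₁ - B₂) := by
  rw [sub_eq_add_neg, sub_eq_add_neg, sub_eq_add_neg]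
  exact h₁.add h₂.neg

theorem s16uc_hasCuspExp_const_smul {h : ℕ} [NeZero h] {f : ℍ → ℂ} {S : LaurentSeries ℂ}
    (hS : HasCuspExp h f S) (c : ℂ) : HasCuspExp h (c • f) (HahnSeries.C c * S) := by
  have := (HasCuspExp.const (h := h) c).mul hS
  convert this using 1
  ext τ
  rfl

theorem s16uc_coeffMap_C {R S : Type*} [CommRing R] [CommRing S] (f : R →+* S) (r : R) :
    coeffMap f (HahnSeries.C r) = HahnSeries.C (f r) := by
  rw [HahnSeries.C_apply, coeffMap_single, HahnSeries.C_apply]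

/-- multiplication by a scalar of `ℤ_(ℓ)` -/
theorem S16ucPair.smul {w : ℤ} {Y : ℍ → ℂ} {A B : LaurentSeries ↥(s16ucZl ℓ)}
    (h : S16ucPair p ℓ w Y A B) (r : ↥(s16ucZl ℓ)) :
    S16ucPair p ℓ w (s16ucIota ℓ r • Y) (HahnSeries.C r * A) (HahnSeries.C r * B) where
  form := h.form.const_smul p _
  expA := by
    rw [map_mul, s16uc_coeffMap_C]
    exact s16uc_hasCuspExp_const_smul h.expA _
  expB := by
    rw [map_mul, s16uc_coeffMap_C, SL_smul_slash]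
    exact s16uc_hasCuspExp_const_smul h.expB _

/-- exact division by a nonzero integer -/
theorem S16ucPair.div {w : ℤ} {Y : ℍ → ℂ} {A B : LaurentSeries ↥(s16ucZl ℓ)} (n : ℕ) (hn : n ≠ 0)
    (h : S16ucPair p ℓ w Y ((n : LaurentSeries ↥(s16ucZl ℓ)) * A)
      ((n : LaurentSeries ↥(s16ucZl ℓ)) * B)) :
    S16ucPair p ℓ w ((n : ℂ)⁻¹ • Y) A B where
  form := h.form.const_smul p _
  expA := by
    have := s16uc_hasCuspExp_const_smul h.expA (n : ℂ)⁻¹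
    rw [map_mul, map_natCast, ← mul_assoc, ← map_natCast (HahnSeries.C (Γ := ℤ) (R := ℂ)), ← map_mul,
      inv_mul_cancel₀ (by exact_mod_cast hn), map_one, one_mul] at this
    exact this
  expB := by
    have := s16uc_hasCuspExp_const_smul h.expB (n : ℂ)⁻¹
    rw [map_mul, map_natCast, ← mul_assoc, ← map_natCast (HahnSeries.C (Γ := ℤ) (R := ℂ)), ← map_mul,
      inv_mul_cancel₀ (by exact_mod_cast hn), map_one, one_mul] at this
    rw [SL_smul_slash]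
    exact this

/-- a level-one form -/
theorem S16ucPair.ofLevelOne {k : ℤ} (f : ModularForm 𝒮ℒ k) (X : LaurentSeries ↥(s16ucZl ℓ))
    (hX : HasCuspExp 1 (f : ℍ → ℂ) (coeffMap (s16ucIota ℓ) X)) :
    S16ucPair p ℓ k (f : ℍ → ℂ) X (qExpand ↥(s16ucZl ℓ) p X) where
  form := s16ubForm_of_levelOne p f
  expA := hX
  expB := by
    rw [slash_eq_of_levelOne, coeffMap_qExpand]
    have := hX.qExpand p
    rwa [one_mul] at this

/-- the engine, for pairs -/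
theorem S16ucPair.engine {w : ℤ} {Y : ℍ → ℂ} {A B : LaurentSeries ↥(s16ucZl ℓ)}
    (h : S16ucPair p ℓ w Y A B) (a b : ℕ) (hab : p + 1 = ℓ ^ a * b)
    (R₀ : LaurentSeries ↥(s16ucZl ℓ))
    (hAc : (ℓ : LaurentSeries ↥(s16ucZl ℓ)) ∣ A - R₀)
    (hBc : (ℓ : LaurentSeries ↥(s16ucZl ℓ)) ∣ B - qExpand ↥(s16ucZl ℓ) p R₀) :
    ∃ (f : ModularForm 𝒮ℒ (((ℓ ^ a : ℕ) : ℤ) * w)) (z : LaurentSeries ↥(s16ucZl ℓ)),
      HasCuspExp 1 (f : ℍ → ℂ) (coeffMap (s16ucIota ℓ)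
        ((b : LaurentSeries ↥(s16ucZl ℓ)) * R₀ ^ (ℓ ^ a) + (ℓ : LaurentSeries ↥(s16ucZl ℓ)) * z)) :=
  s16uc_engine p ℓ a b hab w h.form R₀ A B h.expA hAc h.expB hBc

end Fermat.Agent.S16
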