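/-
S16 / UB core (helper11): from `S16Unit p ℓ e` to a pair `(G; 1 + ℓ^e g, -p⁻¹ (1 + ℓ^e U_p g))`.
-/
import Fermat.Agent.S16.UB.Pair
import Fermat.Agent.S16.Defs

set_option autoImplicit false
set_option linter.style.haveILetI false
set_option linter.unusedSectionVars false

noncomputable section

namespace Fermat.Agent.S16

open UpperHalfPlane ModularForm ModularGroup CongruenceSubgroup Matrix.SpecialLinearGroup
  Fermat.Agent.S24 Fermat.Agent.S20 EisensteinSeries Filter ModularCurve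
open scoped MatrixGroups ModularForm Manifold Real Topology

variable {p : ℕ} [hp : Fact p.Prime] {ℓ : ℕ} [hℓ : Fact ℓ.Prime]

/-- the inverse of `p` in `ℤ_(ℓ)` -/
theorem s16uc_exists_pinv (hℓp : ¬ ℓ ∣ p) :
    ∃ pinv : ↥(s16ucZl ℓ), (p : ↥(s16ucZl ℓ)) * pinv = 1 ∧ s16ucIota ℓ pinv = ((p : ℂ))⁻¹ := by
  obtain ⟨u, hu⟩ := s16uc_isUnit_natCast ℓ hℓp
  refine ⟨((u⁻¹ : (↥(s16ucZl ℓ))ˣ) : ↥(s16ucZl ℓ)), ?_, ?_⟩
  · rw [← hu]; exact u.mul_inv
  · have h1 : s16ucIota ℓ (p : ↥(s16ucZl ℓ)) * s16ucIota ℓ ((u⁻¹ : (↥(s16ucZl ℓ))ˣ) : ↥(s16ucZl ℓ)) = 1 := by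
      rw [← map_mul, ← hu, u.mul_inv, map_one]
    rw [map_natCast] at h1
    exact eq_inv_of_mul_eq_one_right h1

/-- the pair of a weight two form. -/
theorem S16ucPair.ofWeightTwo (G : ModularForm (CongruenceSubgroup.Gamma0 p) 2)
    (A : LaurentSeries ↥(s16ucZl ℓ)) (hA : HasCuspExp 1 (G : ℍ → ℂ) (coeffMap (s16ucIota ℓ) A))
    (pinv : ↥(s16ucZl ℓ)) (hpinv : s16ucIota ℓ pinv = ((p : ℂ))⁻¹) :
    S16ucPair p ℓ 2 (G : ℍ → ℂ) A (-(HahnSeries.C pinv * s16ubContract p A)) where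
  form := s16ubForm_of_modularForm G
  expA := hA
  expB := by
    have := s16ub_hasCuspExp_slash_S p (s16ubForm_of_modularForm G) hA
    rw [map_neg, map_mul, s16uc_coeffMap_C, hpinv, s16uc_coeffMap_contract, HahnSeries.C_mul_eq_smul]
    exact this

/-- the series of a unit. -/
theorem s16uc_exists_unit_series (e : ℕ) (h : S16Unit p ℓ e) :
    ∃ (G : ModularForm (CongruenceSubgroup.Gamma0 p) 2) (g : LaurentSeries ↥(s16ucZl ℓ)),
      (∀ m : ℤ, m ≤ 0 → g.coeff m = 0) ∧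
      HasCuspExp 1 (G : ℍ → ℂ) (coeffMap (s16ucIota ℓ)
        (1 + ((ℓ ^ e : ℕ) : LaurentSeries ↥(s16ucZl ℓ)) * g)) := by
  obtain ⟨G, h0, hn⟩ := h
  have key : ∀ n : ℕ, ∃ s : ↥(s16ucZl ℓ), (n = 0 → s = 0) ∧
      (1 ≤ n → ModularFormClass.qCoeff G n = ((ℓ ^ e : ℕ) : ℂ) * s16ucIota ℓ s) := by
    intro n
    rcases Nat.eq_zero_or_pos n with rfl | hpos
    · exact ⟨0, fun _ => rfl, fun h => absurd h (by norm_num)⟩
    · obtain ⟨r, hr, hv⟩ := hn n hpos
      obtain ⟨s, hs, hrs⟩ := s16uc_exists_eq_pow_mul (ℓ := ℓ) hv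
      refine ⟨⟨s, hs⟩, fun h => absurd h hpos.ne', fun _ => ?_⟩
      rw [hr, hrs, s16ucIota_apply]
      push_cast
      rfl
  choose s hs0 hs1 using key
  refine ⟨G, HahnSeries.ofPowerSeries ℤ _ (PowerSeries.mk s), ?_, ?_⟩
  · intro m hm
    rcases hm.lt_or_eq with hlt | rfl
    · exact ofPowerSeries_coeff_of_neg _ hlt
    · rw [show (0 : ℤ) = ((0 : ℕ) : ℤ) from rfl, HahnSeries.ofPowerSeries_apply_coeff,
        PowerSeries.coeff_mk]
      exact hs0 0 rfl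
  · have hG := s16ub_hasCuspExp_form p (s16ubForm_of_modularForm G)
    convert hG using 1
    ext m
    rw [coeffMap_coeff, HahnSeries.coeff_add, s16uc_natCast_mul_coeff, HahnSeries.coeff_one]
    rcases lt_or_ge m 0 with hlt | hge
    · rw [ofPowerSeries_coeff_of_neg _ hlt, ofPowerSeries_coeff_of_neg _ hlt, if_neg hlt.ne]
      simp
    · obtain ⟨n, rfl⟩ := Int.eq_ofNat_of_zero_le hge
      rw [HahnSeries.ofPowerSeries_apply_coeff, HahnSeries.ofPowerSeries_apply_coeff,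
        PowerSeries.coeff_mk]
      rcases Nat.eq_zero_or_pos n with rfl | hpos
      · rw [hs0 0 rfl]
        simp only [Nat.cast_zero, if_true, mul_zero, add_zero, map_one]
        exact h0.symm
      · have hne : ((n : ℕ) : ℤ) ≠ 0 := by exact_mod_cast hpos.ne'
        rw [if_neg hne, zero_add, map_mul, map_natCast]
        exact (hs1 n hpos).symm

end Fermat.Agent.S16
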