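/-
S16 / UB core (helper11): the contradiction "engine output + Sturm bound".
-/
import Fermat.Agent.S16.UB.Sturm
import Fermat.Agent.S16.UB.Unit

set_option autoImplicit false
set_option linter.style.haveILetI false
set_option linter.unusedSectionVars false

noncomputable section

namespace Fermat.Agent.S16

open UpperHalfPlane ModularForm ModularGroup CongruenceSubgroup Matrix.SpecialLinearGroup
  Fermat.Agent.S24 Fermat.Agent.S20 Fermat.Agent.S28 EisensteinSeries Filter ModularCurve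
open scoped MatrixGroups ModularForm Manifold Real Topology

variable (ℓ : ℕ) [hℓ : Fact ℓ.Prime]

theorem s16uc_natCast_self_series : ((ℓ : ℕ) : LaurentSeries (ZMod ℓ)) = 0 := by
  rw [← map_natCast (HahnSeries.C (Γ := ℤ) (R := ZMod ℓ)), ZMod.natCast_self, map_zero]

/-- a level-one form of weight `12 N - 4 x` whose expansion is `≡ b R₀^m` mod `ℓ`, with `R₀ = c q + …`,
`c` and `b` units mod `ℓ`, and `N < m`, does not exist. -/
theorem s16uc_sturm_contra (k : ℤ) (x N m : ℕ) (hk : k + 4 * x = 12 * N) (hNm : N < m)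
    (f : ModularForm 𝒮ℒ k) (R₀ z : LaurentSeries ↥(s16ucZl ℓ)) (b : ℕ) (hb : ¬ ℓ ∣ b)
    (hR0 : ∀ n : ℤ, n ≤ 0 → s16ucRed ℓ (R₀.coeff n) = 0) (hR1 : s16ucRed ℓ (R₀.coeff 1) ≠ 0)
    (hX : HasCuspExp 1 (f : ℍ → ℂ) (coeffMap (s16ucIota ℓ)
      ((b : LaurentSeries ↥(s16ucZl ℓ)) * R₀ ^ m + (ℓ : LaurentSeries ↥(s16ucZl ℓ)) * z))) :
    False := by
  set X := (b : LaurentSeries ↥(s16ucZl ℓ)) * R₀ ^ m + (ℓ : LaurentSeries ↥(s16ucZl ℓ)) * z with hXdef
  set Rb := coeffMap (s16ucRed ℓ) R₀ with hRb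
  have hXb : coeffMap (s16ucRed ℓ) X = HahnSeries.C ((b : ℕ) : ZMod ℓ) * Rb ^ m := by
    rw [hXdef, map_add, map_mul, map_mul, map_pow, map_natCast, map_natCast,
      s16uc_natCast_self_series, zero_mul, add_zero, map_natCast]
  have hRne : Rb ≠ 0 := by
    intro h0
    apply hR1
    have := congrArg (fun s : LaurentSeries (ZMod ℓ) => s.coeff 1) h0
    simpa [hRb] using this
  have hRord : Rb.order = 1 := by
    apply le_antisymm
    · apply HahnSeries.order_le_of_coeff_ne_zero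
      rw [hRb, coeffMap_coeff]
      exact hR1
    · by_contra hlt
      push Not at hlt
      apply hRne
      apply HahnSeries.coeff_order_eq_zero.mp
      rw [hRb, coeffMap_coeff]
      refine hR0 _ ?_
      rw [hRb] at hlt
      omega
  have hbne : ((b : ℕ) : ZMod ℓ) ≠ 0 := by
    rw [Ne, ZMod.natCast_eq_zero_iff]
    exact hb
  have hCne : (HahnSeries.C ((b : ℕ) : ZMod ℓ) : LaurentSeries (ZMod ℓ)) ≠ 0 := by
    rw [Ne, map_eq_zero_iff _ HahnSeries.C_injective]
    exact hbne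
  have hCord : (HahnSeries.C ((b : ℕ) : ZMod ℓ) : LaurentSeries (ZMod ℓ)).order = 0 := by
    rw [HahnSeries.C_apply, HahnSeries.order_single hbne]
  have hXne : coeffMap (s16ucRed ℓ) X ≠ 0 := by
    rw [hXb]
    exact mul_ne_zero hCne (pow_ne_zero _ hRne)
  have hXord : (coeffMap (s16ucRed ℓ) X).order = m := by
    rw [hXb, HahnSeries.order_mul hCne (pow_ne_zero _ hRne), HahnSeries.order_pow, hCord, hRord]
    simp
  apply hXne
  apply s16uc_sturm ℓ k x N hk f X hX
  intro n hn
  rw [← coeffMap_coeff]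
  apply HahnSeries.coeff_eq_zero_of_lt_order
  rw [hXord]
  have : (N : ℤ) < m := by exact_mod_cast hNm
  omega

end Fermat.Agent.S16
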