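/-
S16 / UB core (helper11): case (h), the part `9 ∣ p + 1` (`ℓ = 3`, no `G ≡ 1 mod 9`).
`Y = (G² - E₄)/3`, `R₀ = (1 - E₄)/3`.
-/
import Fermat.Agent.S16.UB.Final

set_option autoImplicit false
set_option linter.style.haveILetI false
set_option linter.unusedSectionVars false

noncomputable section

namespace Fermat.Agent.S16

open UpperHalfPlane ModularForm ModularGroup CongruenceSubgroup Matrix.SpecialLinearGroup
  Fermat.Agent.S24 Fermat.Agent.S20 Fermat.Agent.S28 EisensteinSeries Filter ModularCurve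
open scoped MatrixGroups ModularForm Manifold Real Topology

/-! ### more on integral series -/

section series

variable (R : Type*) [CommRing R]

theorem s16ucOfInt_add (P Q : PowerSeries ℤ) :
    s16ucOfInt R (P + Q) = s16ucOfInt R P + s16ucOfInt R Q := by
  rw [s16ucOfInt, s16ucOfInt, s16ucOfInt, map_add, map_add]

theorem s16ucOfInt_sub (P Q : PowerSeries ℤ) :
    s16ucOfInt R (P - Q) = s16ucOfInt R P - s16ucOfInt R Q := by
  rw [s16ucOfInt, s16ucOfInt, s16ucOfInt, map_sub, map_sub]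

theorem s16ucOfInt_C (n : ℤ) : s16ucOfInt R (PowerSeries.C n) = (n : LaurentSeries R) := by
  rw [s16ucOfInt, PowerSeries.map_C, HahnSeries.ofPowerSeries_C, eq_intCast, map_intCast]

theorem s16ubContract_one (n : ℕ) [NeZero n] : s16ubContract n (1 : LaurentSeries R) = 1 := by
  ext m
  rw [s16ubContract_coeff, HahnSeries.coeff_one, HahnSeries.coeff_one]
  have hn : n ≠ 0 := NeZero.ne n
  simp [hn]

end series

/-- `(1 - E₄)/3 = -80 ∑ σ₃(n) qⁿ` -/
def s16ucR0h : PowerSeries ℤ :=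
  PowerSeries.mk fun n => if n = 0 then 0 else -80 * ∑ d ∈ n.divisors, (d : ℤ) ^ 3

theorem s16uc_eisenstein4_eq : eisenstein4 = 1 - PowerSeries.C 3 * s16ucR0h := by
  ext n
  rw [map_sub, PowerSeries.coeff_C_mul, eisenstein4, s16ucR0h, PowerSeries.coeff_mk,
    PowerSeries.coeff_mk, PowerSeries.coeff_one]
  by_cases hn : n = 0
  · simp [hn]
  · simp only [hn, if_false]
    ring

theorem s16ucR0h_constantCoeff : PowerSeries.constantCoeff s16ucR0h = 0 := by
  rw [← PowerSeries.coeff_zero_eq_constantCoeff, s16ucR0h, PowerSeries.coeff_mk]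
  simp

theorem s16ucR0h_coeff_one : PowerSeries.coeff 1 s16ucR0h = -80 := by
  rw [s16ucR0h, PowerSeries.coeff_mk]
  simp


/-- a power of a prime times a cofactor -/
theorem s16uc_exists_pow_mul (ℓ n : ℕ) (hℓ : ℓ.Prime) (hn : n ≠ 0) :
    ∃ a b : ℕ, n = ℓ ^ a * b ∧ ¬ ℓ ∣ b ∧ ∀ j : ℕ, ℓ ^ j ∣ n → j ≤ a := by
  obtain ⟨a, b, hb, hab⟩ := Nat.exists_eq_pow_mul_and_not_dvd hn ℓ hℓ.ne_one
  refine ⟨a, b, hab, hb, fun j hj => ?_⟩
  by_contra hlt
  push Not at hlt
  have h1 : ℓ ^ (a + 1) ∣ ℓ ^ a * b := by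
    rw [← hab]
    exact (pow_dvd_pow ℓ hlt).trans hj
  rw [pow_succ] at h1
  exact hb ((Nat.mul_dvd_mul_iff_left (pow_pos hℓ.pos a)).mp h1)

section caseH

variable (p : ℕ) [hp : Fact p.Prime]

/-- `ℤ_(3)` -/
abbrev S16ucR3 : Type := ↥(s16ucZl 3)

local notation "R3" => S16ucR3

/-- **case (h), `9 ∣ p + 1`.** -/
theorem s16_ub_h_big (h9 : 9 ∣ p + 1) : ¬ S16Unit p 3 2 := by
  intro hU
  obtain ⟨G, g, -, hG⟩ := s16uc_exists_unit_series (p := p) (ℓ := 3) 2 hU
  have h3p : ¬ 3 ∣ p := by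
    intro h
    have h1 : 3 ∣ p + 1 := (by norm_num : 3 ∣ 9).trans h9
    have : 3 ∣ 1 := (Nat.dvd_add_right h).mp h1
    omega
  obtain ⟨pinv, hpinv1, hpinv⟩ := s16uc_exists_pinv (p := p) (ℓ := 3) h3p
  -- the pairs
  have pairG := S16ucPair.ofWeightTwo G _ hG pinv hpinv
  have pairE4 : S16ucPair p 3 4 (E₄ : ℍ → ℂ) (s16ucE4 R3) (qExpand R3 p (s16ucE4 R3)) :=
    S16ucPair.ofLevelOne E₄ _ (by
      rw [s16ucE4, s16uc_coeffMap_ofInt]
      exact s16uc_hasCuspExp_E4)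
  have pairF := ((pairG.mul pairG).congr (by norm_num : (2 : ℤ) + 2 = 4) rfl rfl rfl).sub pairE4
  -- the series
  set R0 : LaurentSeries R3 := s16ucOfInt R3 s16ucR0h with hR0
  have he4 : s16ucE4 R3 = 1 - 3 * R0 := by
    rw [s16ucE4, s16uc_eisenstein4_eq, s16ucOfInt_sub, s16ucOfInt_mul, s16ucOfInt_one, s16ucOfInt_C,
      Int.cast_ofNat]
  set u : LaurentSeries R3 := s16ubContract p g with hu
  obtain ⟨b', hb'⟩ := h9
  set c : R3 := pinv ^ 2 * (1 - (p : R3)) * (b' : R3) with hc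
  have hcc : pinv ^ 2 - 1 = 9 * c := by
    have h1 : ((p : R3) + 1) = 9 * (b' : R3) := by exact_mod_cast congrArg (Nat.cast : ℕ → R3) hb'
    rw [hc]
    linear_combination ((p : R3) * pinv + 1) * hpinv1 + (pinv ^ 2 * (1 - (p : R3))) * h1
  have hcC : (HahnSeries.C (pinv ^ 2) : LaurentSeries R3) = 1 + 9 * HahnSeries.C c := by
    have := congrArg (HahnSeries.C (Γ := ℤ) (R := R3)) hcc
    rw [map_sub, map_one, map_mul, map_ofNat] at this
    linear_combination this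
  have hAF : (1 + ((3 ^ 2 : ℕ) : LaurentSeries R3) * g) * (1 + ((3 ^ 2 : ℕ) : LaurentSeries R3) * g) -
      s16ucE4 R3 = ((3 : ℕ) : LaurentSeries R3) * (R0 + 3 * (2 * g + 9 * g ^ 2)) := by
    rw [he4]
    push_cast
    ring
  have hBG : -(HahnSeries.C pinv * s16ubContract p (1 + ((3 ^ 2 : ℕ) : LaurentSeries R3) * g)) =
      -(HahnSeries.C pinv * (1 + 9 * u)) := by
    rw [s16ubContract_add, s16ubContract_one, s16ubContract_natCast_mul, hu]
    push_cast
    norm_num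
  have hBF : -(HahnSeries.C pinv * s16ubContract p (1 + ((3 ^ 2 : ℕ) : LaurentSeries R3) * g)) *
      -(HahnSeries.C pinv * s16ubContract p (1 + ((3 ^ 2 : ℕ) : LaurentSeries R3) * g)) -
      qExpand R3 p (s16ucE4 R3) = ((3 : ℕ) : LaurentSeries R3) * (qExpand R3 p R0 +
        3 * (HahnSeries.C c + HahnSeries.C (pinv ^ 2) * (2 * u + 9 * u ^ 2))) := by
    rw [hBG, he4, map_sub, map_one, map_mul, map_ofNat]
    have hsq : (HahnSeries.C pinv : LaurentSeries R3) * HahnSeries.C pinv = HahnSeries.C (pinv ^ 2) := by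
      rw [← map_mul, pow_two]
    push_cast
    linear_combination (1 + 9 * u) ^ 2 * hsq + hcC
  have pairY := S16ucPair.div 3 (by norm_num) (pairF.congr rfl rfl hAF hBF)
  -- the engine
  obtain ⟨a, b, hab, hb, hmax⟩ := s16uc_exists_pow_mul 3 (p + 1) Nat.prime_three (Nat.succ_ne_zero p)
  have ha2 : 2 ≤ a := hmax 2 (by norm_num; exact ⟨b', hb'⟩)
  obtain ⟨f, z, hf⟩ := pairY.engine a b hab R0 ⟨2 * g + 9 * g ^ 2, by push_cast; ring⟩
    ⟨HahnSeries.C c + HahnSeries.C (pinv ^ 2) * (2 * u + 9 * u ^ 2), by push_cast; ring⟩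
  -- Sturm
  refine s16uc_sturm_contra 3 _ 0 (3 ^ (a - 1)) (3 ^ a) ?_ ?_ f R0 z b hb ?_ ?_ hf
  · have : (3 : ℤ) ^ a = 3 * 3 ^ (a - 1) := by
      rw [← pow_succ']
      congr 1
      omega
    push_cast
    rw [this]
    ring
  · exact Nat.pow_lt_pow_right (by norm_num) (by omega)
  · intro n hn
    rcases hn.lt_or_eq with hlt | rfl
    · rw [hR0, s16ucOfInt_coeff_neg _ _ hlt, map_zero]
    · rw [hR0, show (0 : ℤ) = ((0 : ℕ) : ℤ) from rfl, s16ucOfInt_coeff_nat,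
        PowerSeries.coeff_zero_eq_constantCoeff, s16ucR0h_constantCoeff]
      simp
  · rw [hR0, show (1 : ℤ) = ((1 : ℕ) : ℤ) from rfl, s16ucOfInt_coeff_nat, s16ucR0h_coeff_one,
      s16ucRed_intCast]
    decide

end caseH

end Fermat.Agent.S16
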