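/-
S16 / UB core (helper11): case (c) (`ℓ ≥ 5`, `ℓ ∣ p + 1`, no `G ≡ 1 mod ℓ`): assembly.
Engine with `Y = G`, `R₀ = 1`; then the integral QEP for `f E₄^(M-3) E₆ / Δ^((M-1)/2)`, reduction mod `ℓ`,
and the pure algebra leaf `s16uc_caseC_alg`.
-/
import Fermat.Agent.S16.UB.CaseH
import Fermat.Agent.S16.UB.CaseCAlg

set_option autoImplicit false
set_option linter.style.haveILetI false
set_option linter.unusedSectionVars false

noncomputable section

namespace Fermat.Agent.S16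

open UpperHalfPlane ModularForm ModularGroup CongruenceSubgroup Matrix.SpecialLinearGroup
  Fermat.Agent.S24 Fermat.Agent.S20 Fermat.Agent.S28 EisensteinSeries Filter ModularCurve
open scoped MatrixGroups ModularForm Manifold Real Topology

/-! ### `E₄³ - E₆² = 1728 Δ` for the integral series -/

theorem s16ucOfInt_injective_complex : Function.Injective (s16ucOfInt ℂ) := by
  intro P Q h
  have h1 := HahnSeries.ofPowerSeries_injective (Γ := ℤ) (R := ℂ) h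
  ext n
  have h2 := congrArg (PowerSeries.coeff n) h1
  rw [PowerSeries.coeff_map, PowerSeries.coeff_map, eq_intCast, eq_intCast] at h2
  exact_mod_cast h2

theorem s16uc_deltaSer_eq (R : Type*) [CommRing R] :
    deltaSer R = s16ucOfInt R (PowerSeries.X * dedekindEtaUnit) := by
  rw [deltaSer, s16ucOfInt, map_mul, map_mul, PowerSeries.map_X, HahnSeries.ofPowerSeries_X]

theorem s16uc_E4_cube_sub_E6_sq :
    eisenstein4 ^ 3 - s16ucE6ps ^ 2 = PowerSeries.C 1728 * (PowerSeries.X * dedekindEtaUnit) := by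
  apply s16ucOfInt_injective_complex
  rw [s16ucOfInt_sub, s16ucOfInt_pow, s16ucOfInt_pow, s16ucOfInt_mul, s16ucOfInt_C,
    ← s16uc_deltaSer_eq]
  have h1 : HasCuspExp 1 ((E₄ : ℍ → ℂ) ^ 3 + -((E₆ : ℍ → ℂ) ^ 2))
      (s16ucE4 ℂ ^ 3 + -(s16ucE6 ℂ ^ 2)) :=
    (s16ub_hasCuspExp_pow s16uc_hasCuspExp_E4 3).add (s16ub_hasCuspExp_pow s16uc_hasCuspExp_E6 2).neg
  have h2 : HasCuspExp 1 ((fun _ : ℍ => (1728 : ℂ)) * fun τ : ℍ => ModularForm.discriminant τ)
      (HahnSeries.C (1728 : ℂ) * deltaSer ℂ) :=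
    (HasCuspExp.const (h := 1) (1728 : ℂ)).mul hasCuspExp_delta
  have hfun : ((fun _ : ℍ => (1728 : ℂ)) * fun τ : ℍ => ModularForm.discriminant τ) =
      (E₄ : ℍ → ℂ) ^ 3 + -((E₆ : ℍ → ℂ) ^ 2) := by
    funext τ
    simp only [Pi.mul_apply, Pi.add_apply, Pi.neg_apply, Pi.pow_apply]
    rw [discriminant_eq_E₄_cube_sub_E₆_sq]
    ring
  rw [hfun] at h2
  have := h1.unique h2
  rw [s16ucE4, s16ucE6] at this
  rw [sub_eq_add_neg, this, map_ofNat]
  push_cast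
  rfl


section caseC

variable (p : ℕ) [hp : Fact p.Prime] (ℓ : ℕ) [hℓ : Fact ℓ.Prime]

/-- **case (c).** -/
theorem s16_ub_c_of_dvd (h5 : 5 ≤ ℓ) (hdvd : ℓ ∣ p + 1) : ¬ S16Unit p ℓ 1 := by
  intro hU
  obtain ⟨G, g, -, hG⟩ := s16uc_exists_unit_series (p := p) (ℓ := ℓ) 1 hU
  have hℓp : ¬ ℓ ∣ p := by
    intro h
    have : ℓ ∣ 1 := (Nat.dvd_add_right h).mp hdvd
    have := Nat.le_of_dvd one_pos this
    omega
  obtain ⟨pinv, hpinv1, hpinv⟩ := s16uc_exists_pinv (p := p) (ℓ := ℓ) hℓp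
  have pairG := S16ucPair.ofWeightTwo G _ hG pinv hpinv
  obtain ⟨b', hb'⟩ := hdvd
  set u : LaurentSeries ↥(s16ucZl ℓ) := s16ubContract p g with hu
  set c' : ↥(s16ucZl ℓ) := -(pinv * (b' : ↥(s16ucZl ℓ))) with hc'
  have hcc : -pinv = 1 + (ℓ : ↥(s16ucZl ℓ)) * c' := by
    have h1 : ((p : ↥(s16ucZl ℓ)) + 1) = (ℓ : ↥(s16ucZl ℓ)) * (b' : ↥(s16ucZl ℓ)) := by
      exact_mod_cast congrArg (Nat.cast : ℕ → ↥(s16ucZl ℓ)) hb'
    rw [hc']
    linear_combination hpinv1 - pinv * h1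
  obtain ⟨a, b, hab, hb, hmax⟩ := s16uc_exists_pow_mul ℓ (p + 1) hℓ.out (Nat.succ_ne_zero p)
  have ha1 : 1 ≤ a := hmax 1 (by rw [pow_one]; exact ⟨b', hb'⟩)
  obtain ⟨f, z, hf⟩ := pairG.engine a b hab 1 ⟨g, by push_cast; ring⟩
    ⟨HahnSeries.C c' - HahnSeries.C pinv * u, by
      rw [s16ubContract_add, s16ubContract_one, s16ubContract_natCast_mul, map_one]
      have := congrArg (HahnSeries.C (Γ := ℤ) (R := ↥(s16ucZl ℓ))) hcc
      rw [map_neg, map_add, map_one, map_mul, map_natCast] at this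
      push_cast
      linear_combination this⟩
  -- arithmetic of `M = ℓ ^ a`
  have hodd : Odd (ℓ ^ a) := (hℓ.out.odd_of_ne_two (by omega)).pow
  obtain ⟨N, hN⟩ := hodd
  have hM5 : 5 ≤ ℓ ^ a := by
    calc 5 ≤ ℓ := h5
      _ = ℓ ^ 1 := (pow_one ℓ).symm
      _ ≤ ℓ ^ a := Nat.pow_le_pow_right hℓ.out.pos ha1
  have hN2 : (ℓ ^ a - 1) / 2 = N := by omega
  -- QEP
  obtain ⟨P, hP⟩ := s16uc_qep ℓ _ (ℓ ^ a - 3) 1 N (by
    have h3 : ((ℓ ^ a - 3 : ℕ) : ℤ) = ((ℓ ^ a : ℕ) : ℤ) - 3 := by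
      rw [Nat.cast_sub (by omega)]; rfl
    rw [h3, hN]
    push_cast
    ring) f _ hf
  have hP' := congrArg (coeffMap (s16ucRed ℓ)) hP
  rw [s16uc_coeffMap_aeval, map_mul, map_mul, map_mul, map_pow, map_pow, map_pow, map_add, map_mul,
    map_mul, map_pow, map_one, one_pow, mul_one, map_natCast, map_natCast, s16uc_natCast_self_series,
    zero_mul, add_zero, coeffMap_deltaInvSer, s16ucE4, s16ucE6, s16uc_coeffMap_ofInt,
    s16uc_coeffMap_ofInt, pow_one, ← map_natCast (HahnSeries.C (Γ := ℤ) (R := ZMod ℓ))] at hP'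
  -- the leaf
  have hbne : ((b : ℕ) : ZMod ℓ) ≠ 0 := by
    rw [Ne, ZMod.natCast_eq_zero_iff]
    exact hb
  refine s16uc_caseC_alg ℓ h5 a ha1 (eisenstein4.map (Int.castRingHom (ZMod ℓ)))
    (s16ucE6ps.map (Int.castRingHom (ZMod ℓ))) (dedekindEtaUnit.map (Int.castRingHom (ZMod ℓ)))
    (dedekindEtaUnitInv.map (Int.castRingHom (ZMod ℓ))) ?_ ?_ ?_ ((b : ℕ) : ZMod ℓ) hbne
    (P.map (s16ucRed ℓ)) ?_
  · rw [← PowerSeries.coeff_zero_eq_constantCoeff, PowerSeries.coeff_map,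
      PowerSeries.coeff_zero_eq_constantCoeff, constantCoeff_eisenstein4, map_one]
  · rw [← map_mul, dedekindEtaUnit_mul_inv, map_one]
  · have := congrArg (PowerSeries.map (Int.castRingHom (ZMod ℓ))) s16uc_E4_cube_sub_E6_sq
    rw [map_sub, map_pow, map_pow, map_mul, map_mul, PowerSeries.map_C, PowerSeries.map_X] at this
    rw [this, mul_assoc]
    simp
  · rw [hN2]
    have hj : jqModC (ZMod ℓ) = HahnSeries.single (-1 : ℤ) (1 : ZMod ℓ) *
        HahnSeries.ofPowerSeries ℤ (ZMod ℓ) (eisenstein4.map (Int.castRingHom (ZMod ℓ)) ^ 3 *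
          dedekindEtaUnitInv.map (Int.castRingHom (ZMod ℓ))) := by
      rw [jqModC, jNum, map_mul, map_pow]
    rw [← hj]
    exact hP'

end caseC

end Fermat.Agent.S16
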