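/-
S16 case (c) (`ℓ ≥ 5`, `ℓ ∣ p + 1`, no `G ≡ 1 mod ℓ`): interface form of `s16_ub_c_of_dvd`
(helper11, `UB/CaseC.lean`; algebraic leaf `UB/CaseCAlg.lean` by helper1).
-/
import Fermat.Agent.S16.UB.CaseC

set_option autoImplicit false

namespace Fermat.Agent.S16

/-- (c) `ℓ ≥ 5`, `ℓ ∣ p + 1` (all conjugates of `G` are `≡ 1`). -/
theorem s16_ub_c (p : ℕ) [Fact p.Prime] (hp : 5 ≤ p) (ℓ : ℕ) (hℓ : ℓ.Prime) (h5 : 5 ≤ ℓ)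
    (hdvd : ℓ ∣ p + 1) : ¬ S16Unit p ℓ 1 := by
  have _ := hp
  have : Fact ℓ.Prime := ⟨hℓ⟩
  exact s16_ub_c_of_dvd p ℓ h5 hdvd

end Fermat.Agent.S16
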