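/-
S16 / UB core (helper11): case (g) (`ℓ = 2`, `8 ∣ p + 1`, no `G ≡ 1 mod 8`).
`Q(T) = T⁴ - (2/3) E₄ T² - (8/27) E₆ T - (1/27) E₄²`, `Y = Q(G)/256`, `R₀ = Q(1)/256`.
-/
import Fermat.Agent.S16.UB.CaseH

set_option autoImplicit false
set_option linter.style.haveILetI false
set_option linter.unusedSectionVars false

noncomputable section

namespace Fermat.Agent.S16

open UpperHalfPlane ModularForm ModularGroup CongruenceSubgroup Matrix.SpecialLinearGroup
  Fermat.Agent.S24 Fermat.Agent.S20 Fermat.Agent.S28 EisensteinSeries Filter ModularCurve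
open scoped MatrixGroups ModularForm Manifold Real Topology

/-! ### the algebraic identity -/

theorem s16uc_caseG_alg {T : Type*} [CommRing T] (κ α β W g : T) (hκ : 27 * κ = 1)
    (hW : 5 * α + β = 4 * W) :
    (1 + 8 * g) ^ 4 - 18 * κ * ((1 + 16 * α) * (1 + 8 * g) ^ 2) -
        8 * κ * ((1 + 8 * β) * (1 + 8 * g)) - κ * ((1 + 16 * α) * (1 + 16 * α)) =
      256 * (-(κ * (W + α ^ 2)) + 2 * (κ * g + 18 * κ * g ^ 2 + 4 * g ^ 3 + 8 * g ^ 4 -
        9 * κ * α * g - 36 * κ * α * g ^ 2 - κ * β * g)) := by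
  linear_combination (-1 - 32 * g - 384 * g ^ 2) * hκ + (-64 * κ) * hW

/-! ### the integral series -/

/-- `(E₄ - 1)/16 = 15 ∑ σ₃(n) qⁿ` -/
def s16ucAlphah : PowerSeries ℤ :=
  PowerSeries.mk fun n => if n = 0 then 0 else 15 * ∑ d ∈ n.divisors, (d : ℤ) ^ 3

/-- `(E₆ - 1)/8 = -63 ∑ σ₅(n) qⁿ` -/
def s16ucBetah : PowerSeries ℤ :=
  PowerSeries.mk fun n => if n = 0 then 0 else -63 * ∑ d ∈ n.divisors, (d : ℤ) ^ 5

/-- `(5 α + β)/4 = ∑_n ∑_{d ∣ n} (75 d³ - 63 d⁵)/4 qⁿ` -/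
def s16ucWh : PowerSeries ℤ :=
  PowerSeries.mk fun n => if n = 0 then 0 else ∑ d ∈ n.divisors, (75 * (d : ℤ) ^ 3 - 63 * (d : ℤ) ^ 5) / 4

theorem s16uc_eisenstein4_eq' : eisenstein4 = 1 + PowerSeries.C 16 * s16ucAlphah := by
  ext n
  rw [map_add, PowerSeries.coeff_C_mul, eisenstein4, s16ucAlphah, PowerSeries.coeff_mk,
    PowerSeries.coeff_mk, PowerSeries.coeff_one]
  by_cases hn : n = 0
  · simp [hn]
  · simp only [hn, if_false]
    ring

theorem s16uc_E6ps_eq : s16ucE6ps = 1 + PowerSeries.C 8 * s16ucBetah := by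
  ext n
  rw [map_add, PowerSeries.coeff_C_mul, s16ucE6ps, s16ucBetah, PowerSeries.coeff_mk,
    PowerSeries.coeff_mk, PowerSeries.coeff_one]
  by_cases hn : n = 0
  · simp [hn]
  · simp only [hn, if_false]
    ring

theorem s16uc_four_dvd (d : ℤ) : (4 : ℤ) ∣ 75 * d ^ 3 - 63 * d ^ 5 := by
  have h : ∀ x : ZMod 4, 75 * x ^ 3 - 63 * x ^ 5 = 0 := by decide
  have := h (d : ZMod 4)
  have h4 : ((4 : ℕ) : ℤ) ∣ 75 * d ^ 3 - 63 * d ^ 5 := by
    rw [← (ZMod.intCast_zmod_eq_zero_iff_dvd _ 4)]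
    push_cast
    exact this
  exact_mod_cast h4

theorem s16uc_Wh_eq : PowerSeries.C 5 * s16ucAlphah + s16ucBetah = PowerSeries.C 4 * s16ucWh := by
  ext n
  rw [map_add, PowerSeries.coeff_C_mul, PowerSeries.coeff_C_mul, s16ucAlphah, s16ucBetah, s16ucWh,
    PowerSeries.coeff_mk, PowerSeries.coeff_mk, PowerSeries.coeff_mk]
  by_cases hn : n = 0
  · simp [hn]
  · simp only [hn, if_false]
    rw [Finset.mul_sum, Finset.mul_sum, Finset.mul_sum, Finset.mul_sum, ← Finset.sum_add_distrib]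
    refine Finset.sum_congr rfl fun d _ => ?_
    rw [Int.mul_ediv_cancel' (s16uc_four_dvd d)]
    ring

theorem s16ucWh_constantCoeff : PowerSeries.constantCoeff s16ucWh = 0 := by
  rw [← PowerSeries.coeff_zero_eq_constantCoeff, s16ucWh, PowerSeries.coeff_mk]
  simp

theorem s16ucWh_coeff_one : PowerSeries.coeff 1 s16ucWh = 3 := by
  rw [s16ucWh, PowerSeries.coeff_mk]
  simp

theorem s16ucAlphah_constantCoeff : PowerSeries.constantCoeff s16ucAlphah = 0 := by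
  rw [← PowerSeries.coeff_zero_eq_constantCoeff, s16ucAlphah, PowerSeries.coeff_mk]
  simp

theorem s16uc_WA_constantCoeff :
    PowerSeries.constantCoeff (s16ucWh + s16ucAlphah ^ 2) = 0 := by
  rw [map_add, map_pow, s16ucWh_constantCoeff, s16ucAlphah_constantCoeff]
  simp

theorem s16uc_WA_coeff_one : PowerSeries.coeff 1 (s16ucWh + s16ucAlphah ^ 2) = 3 := by
  have h2 : PowerSeries.coeff 1 (s16ucAlphah ^ 2) = 0 := by
    rw [pow_two, PowerSeries.coeff_mul]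
    rw [Finset.Nat.antidiagonal_succ]
    simp [s16ucAlphah_constantCoeff, PowerSeries.coeff_zero_eq_constantCoeff]
  rw [map_add, h2, s16ucWh_coeff_one, add_zero]


section caseG

variable (p : ℕ) [hp : Fact p.Prime]

/-- `ℤ_(2)` -/
abbrev S16ucR2 : Type := ↥(s16ucZl 2)

local notation "R2" => S16ucR2

/-- `1/27 ∈ ℤ_(2)` -/
theorem s16uc_exists_c27 : ∃ c : R2, 27 * c = 1 ∧ s16ucRed 2 c = 1 := by
  obtain ⟨u, hu⟩ := s16uc_isUnit_natCast 2 (n := 27) (by norm_num)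
  refine ⟨((u⁻¹ : R2ˣ) : R2), ?_, ?_⟩
  · have : ((27 : ℕ) : R2) * ((u⁻¹ : R2ˣ) : R2) = 1 := by rw [← hu]; exact u.mul_inv
    exact_mod_cast this
  · have h1 : s16ucRed 2 ((27 : ℕ) : R2) * s16ucRed 2 ((u⁻¹ : R2ˣ) : R2) = 1 := by
      rw [← map_mul, ← hu, u.mul_inv, map_one]
    rw [s16ucRed_natCast] at h1
    have h27 : ((27 : ℕ) : ZMod 2) = 1 := by decide
    rwa [h27, one_mul] at h1

/-- **case (g).** -/
theorem s16_ub_g_of_dvd (h8 : 8 ∣ p + 1) : ¬ S16Unit p 2 3 := by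
  intro hU
  obtain ⟨G, g, -, hG⟩ := s16uc_exists_unit_series (p := p) (ℓ := 2) 3 hU
  have h2p : ¬ 2 ∣ p := by
    intro h
    have h1 : 2 ∣ p + 1 := (by norm_num : 2 ∣ 8).trans h8
    have : 2 ∣ 1 := (Nat.dvd_add_right h).mp h1
    omega
  obtain ⟨pinv, hpinv1, hpinv⟩ := s16uc_exists_pinv (p := p) (ℓ := 2) h2p
  obtain ⟨c27, hc27, hc27red⟩ := s16uc_exists_c27
  -- the pairs
  have pairG := S16ucPair.ofWeightTwo G _ hG pinv hpinv
  have pairE4 : S16ucPair p 2 4 (E₄ : ℍ → ℂ) (s16ucE4 R2) (qExpand R2 p (s16ucE4 R2)) :=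
    S16ucPair.ofLevelOne E₄ _ (by
      rw [s16ucE4, s16uc_coeffMap_ofInt]
      exact s16uc_hasCuspExp_E4)
  have pairE6 : S16ucPair p 2 6 (E₆ : ℍ → ℂ) (s16ucE6 R2) (qExpand R2 p (s16ucE6 R2)) :=
    S16ucPair.ofLevelOne E₆ _ (by
      rw [s16ucE6, s16uc_coeffMap_ofInt]
      exact s16uc_hasCuspExp_E6)
  have pairG2 := pairG.mul pairG
  have pairG4 := (pairG2.mul pairG2).congr (by norm_num : (2 : ℤ) + 2 + (2 + 2) = 8) rfl rfl rfl
  have pairE4G2 := ((pairE4.mul pairG2).congr (by norm_num : (4 : ℤ) + (2 + 2) = 8) rfl rfl rfl).smul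
    (18 * c27)
  have pairE6G := ((pairE6.mul pairG).congr (by norm_num : (6 : ℤ) + 2 = 8) rfl rfl rfl).smul
    (8 * c27)
  have pairE4E4 := ((pairE4.mul pairE4).congr (by norm_num : (4 : ℤ) + 4 = 8) rfl rfl rfl).smul c27
  have pairF := ((pairG4.sub pairE4G2).sub pairE6G).sub pairE4E4
  -- the series
  set κ : LaurentSeries R2 := HahnSeries.C c27 with hκ
  have hκ27 : 27 * κ = 1 := by
    have := congrArg (HahnSeries.C (Γ := ℤ) (R := R2)) hc27
    rwa [map_mul, map_ofNat, map_one] at this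
  set α : LaurentSeries R2 := s16ucOfInt R2 s16ucAlphah with hα
  set β : LaurentSeries R2 := s16ucOfInt R2 s16ucBetah with hβ
  set W : LaurentSeries R2 := s16ucOfInt R2 s16ucWh with hWdef
  have hW : 5 * α + β = 4 * W := by
    have := congrArg (s16ucOfInt R2) s16uc_Wh_eq
    rw [s16ucOfInt_add, s16ucOfInt_mul, s16ucOfInt_mul, s16ucOfInt_C, s16ucOfInt_C,
      Int.cast_ofNat, Int.cast_ofNat] at this
    exact this
  have he4 : s16ucE4 R2 = 1 + 16 * α := by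
    rw [s16ucE4, s16uc_eisenstein4_eq', s16ucOfInt_add, s16ucOfInt_mul, s16ucOfInt_one, s16ucOfInt_C,
      Int.cast_ofNat]
  have he6 : s16ucE6 R2 = 1 + 8 * β := by
    rw [s16ucE6, s16uc_E6ps_eq, s16ucOfInt_add, s16ucOfInt_mul, s16ucOfInt_one, s16ucOfInt_C,
      Int.cast_ofNat]
  have hC18 : (HahnSeries.C (18 * c27) : LaurentSeries R2) = 18 * κ := by
    rw [map_mul, map_ofNat]
  have hC8 : (HahnSeries.C (8 * c27) : LaurentSeries R2) = 8 * κ := by
    rw [map_mul, map_ofNat]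
  set R0 : LaurentSeries R2 := -(κ * (W + α ^ 2)) with hR0
  -- expansion at infinity
  have hAF : (1 + ((2 ^ 3 : ℕ) : LaurentSeries R2) * g) * (1 + ((2 ^ 3 : ℕ) : LaurentSeries R2) * g) *
        ((1 + ((2 ^ 3 : ℕ) : LaurentSeries R2) * g) * (1 + ((2 ^ 3 : ℕ) : LaurentSeries R2) * g)) -
      HahnSeries.C (18 * c27) * (s16ucE4 R2 *
        ((1 + ((2 ^ 3 : ℕ) : LaurentSeries R2) * g) * (1 + ((2 ^ 3 : ℕ) : LaurentSeries R2) * g))) -
      HahnSeries.C (8 * c27) * (s16ucE6 R2 * (1 + ((2 ^ 3 : ℕ) : LaurentSeries R2) * g)) -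
      HahnSeries.C c27 * (s16ucE4 R2 * s16ucE4 R2) =
      ((256 : ℕ) : LaurentSeries R2) * (R0 + 2 * (κ * g + 18 * κ * g ^ 2 + 4 * g ^ 3 + 8 * g ^ 4 -
        9 * κ * α * g - 36 * κ * α * g ^ 2 - κ * β * g)) := by
    have := s16uc_caseG_alg κ α β W g hκ27 hW
    rw [hC18, hC8, he4, he6]
    push_cast
    linear_combination this
  -- expansion at the other cusp
  set u : LaurentSeries R2 := s16ubContract p g with hu
  obtain ⟨b', hb'⟩ := h8
  set c' : R2 := -(pinv * (b' : R2)) with hc'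
  have hcc : -pinv = 1 + 8 * c' := by
    have h1 : ((p : R2) + 1) = 8 * (b' : R2) := by exact_mod_cast congrArg (Nat.cast : ℕ → R2) hb'
    rw [hc']
    linear_combination hpinv1 - pinv * h1
  set g' : LaurentSeries R2 := HahnSeries.C c' - HahnSeries.C pinv * u with hg'
  have hBG : -(HahnSeries.C pinv * s16ubContract p (1 + ((2 ^ 3 : ℕ) : LaurentSeries R2) * g)) =
      1 + 8 * g' := by
    rw [s16ubContract_add, s16ubContract_one, s16ubContract_natCast_mul, hg']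
    have := congrArg (HahnSeries.C (Γ := ℤ) (R := R2)) hcc
    rw [map_neg, map_add, map_one, map_mul, map_ofNat] at this
    push_cast
    linear_combination this
  have hqW : 5 * qExpand R2 p α + qExpand R2 p β = 4 * qExpand R2 p W := by
    have := congrArg (qExpand R2 p) hW
    rwa [map_add, map_mul, map_mul, map_ofNat, map_ofNat] at this
  have hqκ : qExpand R2 p κ = κ := by rw [hκ, qExpand_C]
  have hBF : -(HahnSeries.C pinv * s16ubContract p (1 + ((2 ^ 3 : ℕ) : LaurentSeries R2) * g)) *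
          -(HahnSeries.C pinv * s16ubContract p (1 + ((2 ^ 3 : ℕ) : LaurentSeries R2) * g)) *
        (-(HahnSeries.C pinv * s16ubContract p (1 + ((2 ^ 3 : ℕ) : LaurentSeries R2) * g)) *
          -(HahnSeries.C pinv * s16ubContract p (1 + ((2 ^ 3 : ℕ) : LaurentSeries R2) * g))) -
      HahnSeries.C (18 * c27) * (qExpand R2 p (s16ucE4 R2) *
        (-(HahnSeries.C pinv * s16ubContract p (1 + ((2 ^ 3 : ℕ) : LaurentSeries R2) * g)) *
          -(HahnSeries.C pinv * s16ubContract p (1 + ((2 ^ 3 : ℕ) : LaurentSeries R2) * g)))) -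
      HahnSeries.C (8 * c27) * (qExpand R2 p (s16ucE6 R2) *
        -(HahnSeries.C pinv * s16ubContract p (1 + ((2 ^ 3 : ℕ) : LaurentSeries R2) * g))) -
      HahnSeries.C c27 * (qExpand R2 p (s16ucE4 R2) * qExpand R2 p (s16ucE4 R2)) =
      ((256 : ℕ) : LaurentSeries R2) * (qExpand R2 p R0 + 2 * (κ * g' + 18 * κ * g' ^ 2 + 4 * g' ^ 3 +
        8 * g' ^ 4 - 9 * κ * qExpand R2 p α * g' - 36 * κ * qExpand R2 p α * g' ^ 2 -
        κ * qExpand R2 p β * g')) := by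
    have := s16uc_caseG_alg κ (qExpand R2 p α) (qExpand R2 p β) (qExpand R2 p W) g' hκ27 hqW
    have hqR0 : qExpand R2 p R0 = -(κ * (qExpand R2 p W + qExpand R2 p α ^ 2)) := by
      rw [hR0, map_neg, map_mul, map_add, map_pow, hqκ]
    have he4q : qExpand R2 p (s16ucE4 R2) = 1 + 16 * qExpand R2 p α := by
      rw [he4, map_add, map_one, map_mul, map_ofNat]
    have he6q : qExpand R2 p (s16ucE6 R2) = 1 + 8 * qExpand R2 p β := by
      rw [he6, map_add, map_one, map_mul, map_ofNat]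
    rw [hBG, hC18, hC8, he4q, he6q, hqR0]
    push_cast
    linear_combination this
  have pairY := S16ucPair.div 256 (by norm_num) (pairF.congr rfl rfl hAF hBF)
  -- the engine
  obtain ⟨a, b, hab, hb, hmax⟩ := s16uc_exists_pow_mul 2 (p + 1) Nat.prime_two (Nat.succ_ne_zero p)
  have ha3 : 3 ≤ a := hmax 3 (by norm_num; exact ⟨b', hb'⟩)
  obtain ⟨f, z, hf⟩ := pairY.engine a b hab R0
    ⟨κ * g + 18 * κ * g ^ 2 + 4 * g ^ 3 + 8 * g ^ 4 - 9 * κ * α * g - 36 * κ * α * g ^ 2 - κ * β * g,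
      by push_cast; ring⟩
    ⟨κ * g' + 18 * κ * g' ^ 2 + 4 * g' ^ 3 + 8 * g' ^ 4 - 9 * κ * qExpand R2 p α * g' -
      36 * κ * qExpand R2 p α * g' ^ 2 - κ * qExpand R2 p β * g', by push_cast; ring⟩
  -- Sturm
  have h3 : (2 ^ (a + 1)) % 3 ≠ 0 := by
    intro h0
    have : 3 ∣ 2 ^ (a + 1) := Nat.dvd_of_mod_eq_zero h0
    have := Nat.Prime.dvd_of_dvd_pow Nat.prime_three this
    omega
  have hpow : 2 ^ (a + 1) = 2 * 2 ^ a := by rw [pow_succ]; ring
  have h8le : 8 ≤ 2 ^ a := by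
    calc 8 = 2 ^ 3 := by norm_num
      _ ≤ 2 ^ a := Nat.pow_le_pow_right (by norm_num) ha3
  refine s16uc_sturm_contra 2 _ (3 - 2 ^ (a + 1) % 3) ((2 ^ (a + 1) + (3 - 2 ^ (a + 1) % 3)) / 3)
    (2 ^ a) ?_ ?_ f R0 z b hb ?_ ?_ hf
  · have hN : 2 ^ (a + 1) + (3 - 2 ^ (a + 1) % 3) =
        3 * ((2 ^ (a + 1) + (3 - 2 ^ (a + 1) % 3)) / 3) := by omega
    have hN' := congrArg (Nat.cast : ℕ → ℤ) hN
    push_cast at hN' ⊢
    rw [hpow] at hN'
    linarith
  · omega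
  · intro n hn
    have hWA : W + α ^ 2 = s16ucOfInt R2 (s16ucWh + s16ucAlphah ^ 2) := by
      rw [s16ucOfInt_add, s16ucOfInt_pow]
    rw [hR0, hWA, HahnSeries.coeff_neg, hκ, HahnSeries.C_mul_eq_smul, HahnSeries.coeff_smul]
    rcases hn.lt_or_eq with hlt | rfl
    · rw [s16ucOfInt_coeff_neg _ _ hlt]
      simp
    · rw [show (0 : ℤ) = ((0 : ℕ) : ℤ) from rfl, s16ucOfInt_coeff_nat,
        PowerSeries.coeff_zero_eq_constantCoeff, s16uc_WA_constantCoeff]
      simp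
  · have hWA : W + α ^ 2 = s16ucOfInt R2 (s16ucWh + s16ucAlphah ^ 2) := by
      rw [s16ucOfInt_add, s16ucOfInt_pow]
    rw [hR0, hWA, HahnSeries.coeff_neg, hκ, HahnSeries.C_mul_eq_smul, HahnSeries.coeff_smul,
      show (1 : ℤ) = ((1 : ℕ) : ℤ) from rfl, s16ucOfInt_coeff_nat, s16uc_WA_coeff_one, smul_eq_mul,
      map_neg, map_mul, hc27red, s16ucRed_intCast]
    decide

end caseG

end Fermat.Agent.S16
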