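/-
S16 / UB core (helper11): row 396 = case (g), statement VERBATIM from S16/Spec.lean.
-/
import Fermat.Agent.S16.UB.CaseG

set_option autoImplicit false

namespace Fermat.Agent.S16

/-- (g) `ℓ = 2`, `p ≡ 7 mod 8`: no `G ≡ 1 mod 8`. -/
theorem s16_ub_g (p : ℕ) [Fact p.Prime] (hp : 5 ≤ p) (h8 : p % 8 = 7) : ¬ S16Unit p 2 3 :=
  s16_ub_g_of_dvd p (Nat.dvd_of_mod_eq_zero (by omega))

end Fermat.Agent.S16
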