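/-
S16 / UB core (helper11): the conjugates of a weight-2 form of level `Γ₀(p)`.

For `f : ℍ → ℂ` holomorphic, `Γ₀(p)`-invariant of weight 2 and bounded at all cusps (`S16ubForm p 2 f`):
* `s16ubTr_weight_two` : `f + ∑_{j<p} f ∣[2] (S T^j) = 0`   (there is no level-one form of weight 2);
* `s16ub_slash_W`      : `f ∣[2] W_p = - U_p f`             (`W_p = [[0,-1],[p,0]]`, `U_p` = Prelude `heckeU 2 p`);
* `s16ub_conj`         : `f ∣[2] (S T^j) = - (U_p f) ∣[2] [[1,j],[0,p]]`, i.e.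
                         `(f ∣[2] S T^j)(τ) = - p⁻¹ (U_p f)((τ + j)/p)`.
-/
import Fermat.Agent.S16.UB.Coset
import Fermat.Prelude.Def_ModularForm_HeckeOperator
import Fermat.Agent.S24.Ramanujan

set_option autoImplicit false
set_option linter.style.haveILetI false
set_option linter.unusedSectionVars false

noncomputable section

namespace Fermat.Agent.S16

open UpperHalfPlane ModularForm ModularGroup CongruenceSubgroup Matrix.SpecialLinearGroup
open scoped MatrixGroups ModularForm Manifold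

/-- function-level modular form of weight `k` on `Γ₀(p)`. -/
structure S16ubForm (p : ℕ) (k : ℤ) (f : ℍ → ℂ) : Prop where
  inv : ∀ γ ∈ Gamma0 p, f ∣[k] γ = f
  hol : MDiff f
  bdd : ∀ γ : SL(2, ℤ), IsBoundedAtImInfty (f ∣[k] γ)

theorem S16ubForm.bdd_self {p : ℕ} {k : ℤ} {f : ℍ → ℂ} (hf : S16ubForm p k f) :
    IsBoundedAtImInfty f := by
  have := hf.bdd 1
  rwa [SlashAction.slash_one] at this

/-- a Mathlib modular form of level `Γ₀(p)` is an `S16ubForm`. -/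
theorem s16ubForm_of_modularForm {p : ℕ} [NeZero p] {k : ℤ} {F : Type*} [FunLike F ℍ ℂ]
    [ModularFormClass F (Gamma0 p) k] (f : F) : S16ubForm p k (f : ℍ → ℂ) where
  inv γ hγ := SlashInvariantForm.slash_action_eqn f _ ⟨γ, hγ, rfl⟩
  hol := ModularFormClass.holo f
  bdd γ := ModularFormClass.bdd_at_infty_slash f γ

section Tr

variable (p : ℕ) [hp : Fact p.Prime]

theorem s16ubTr_mdiff {k : ℤ} {f : ℍ → ℂ} (hf : MDiff f) : MDiff (s16ubTr p k f) := by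
  unfold s16ubTr
  exact MDifferentiable.sum fun i _ => by
    rw [SL_slash]; exact hf.slash k _

theorem s16ubTr_bdd {k : ℤ} {f : ℍ → ℂ} (hf : S16ubForm p k f) :
    IsBoundedAtImInfty (s16ubTr p k f) := by
  unfold s16ubTr
  classical
  have : ∀ s : Finset (Option (Fin p)),
      IsBoundedAtImInfty (∑ i ∈ s, f ∣[k] s16ubRep p i) := by
    intro s
    induction s using Finset.induction_on with
    | empty =>
      simp only [Finset.sum_empty]
      exact zero_form_isBoundedAtImInfty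
    | insert a s ha ih =>
      rw [Finset.sum_insert ha]
      exact (hf.bdd _).add ih
  exact this _

/-- the trace of an `S16ubForm` is a level-one modular form. -/
def s16ubTrForm {k : ℤ} {f : ℍ → ℂ} (hf : S16ubForm p k f) : ModularForm 𝒮ℒ k :=
  Fermat.Agent.S24.levelOneOfInvariant k (s16ubTr p k f) (s16ubTr_slash p k f hf.inv)
    (s16ubTr_mdiff p hf.hol) (s16ubTr_bdd p hf)

@[simp] theorem coe_s16ubTrForm {k : ℤ} {f : ℍ → ℂ} (hf : S16ubForm p k f) :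
    ⇑(s16ubTrForm p hf) = s16ubTr p k f := rfl

/-- there is no nonzero level-one form of weight 2. -/
theorem s16ubTr_weight_two {f : ℍ → ℂ} (hf : S16ubForm p 2 f) : s16ubTr p 2 f = 0 := by
  have h0 : s16ubTrForm p hf = 0 := by
    have hr := ModularForm.levelOne_weight_two_rank_zero
    rw [rank_zero_iff_forall_zero] at hr
    exact hr _
  have := congrArg (fun F : ModularForm 𝒮ℒ 2 => (F : ℍ → ℂ)) h0
  simpa using this

end Tr

section W

variable (p : ℕ) [hp : Fact p.Prime]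

/-- the scalar matrix `c I`. -/
def s16ubScalar (c : ℝ) (hc : c ≠ 0) : GL (Fin 2) ℝ :=
  Matrix.GeneralLinearGroup.mkOfDetNeZero !![c, 0; 0, c]
    (by rw [Matrix.det_fin_two_of]; simpa using hc)

@[simp] theorem val_s16ubScalar (c : ℝ) (hc : c ≠ 0) :
    ((s16ubScalar c hc : GL (Fin 2) ℝ) : Matrix (Fin 2) (Fin 2) ℝ) = !![c, 0; 0, c] := rfl

theorem det_s16ubScalar (c : ℝ) (hc : c ≠ 0) : ((s16ubScalar c hc).det : ℝ) = c * c := by
  rw [Matrix.GeneralLinearGroup.val_det_apply, val_s16ubScalar, Matrix.det_fin_two_of]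
  ring

/-- scalar matrices act trivially in weight 2. -/
theorem s16ub_slash_scalar (c : ℝ) (hc : c ≠ 0) (f : ℍ → ℂ) :
    f ∣[(2 : ℤ)] s16ubScalar c hc = f := by
  have hdet : 0 < ((s16ubScalar c hc).det : ℝ) := by
    rw [det_s16ubScalar]; exact mul_self_pos.mpr hc
  have hcC : (c : ℂ) ≠ 0 := by exact_mod_cast hc
  ext τ
  have hden : denom (s16ubScalar c hc) τ = c := by
    simp [UpperHalfPlane.denom]
  have hsmul : s16ubScalar c hc • τ = τ := by
    apply UpperHalfPlane.ext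
    rw [UpperHalfPlane.coe_smul_of_det_pos hdet]
    simp only [UpperHalfPlane.num, UpperHalfPlane.denom, val_s16ubScalar]
    simp
    field_simp
  rw [ModularForm.slash_apply, UpperHalfPlane.σ, if_pos hdet, hsmul, hden, det_s16ubScalar]
  simp only [ContinuousAlgEquiv.refl_apply]
  rw [abs_mul_self, show (2 : ℤ) - 1 = 1 by norm_num, zpow_one, mul_assoc]
  push_cast
  rw [show (c : ℂ) * c * (c : ℂ) ^ (-2 : ℤ) = 1 by
    rw [zpow_neg, show ((c : ℂ) ^ (2 : ℤ)) = c * c by rw [zpow_ofNat]; ring]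
    field_simp]
  ring

/-- the Fricke matrix `W_p = [[0,-1],[p,0]]`. -/
def s16ubW : GL (Fin 2) ℝ :=
  Matrix.GeneralLinearGroup.mkOfDetNeZero !![0, -1; (p : ℝ), 0]
    (by
      rw [Matrix.det_fin_two_of]
      have : (p : ℝ) ≠ 0 := by exact_mod_cast hp.out.ne_zero
      simpa using this)

@[simp] theorem val_s16ubW :
    ((s16ubW p : GL (Fin 2) ℝ) : Matrix (Fin 2) (Fin 2) ℝ) = !![0, -1; (p : ℝ), 0] := rfl

theorem s16ub_mapGL_apply (γ : SL(2, ℤ)) (i j : Fin 2) :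
    ((mapGL ℝ γ : GL (Fin 2) ℝ) : Matrix (Fin 2) (Fin 2) ℝ) i j = ((γ i j : ℤ) : ℝ) := rfl

theorem s16ub_ST_apply (j : ℕ) (a b : Fin 2) :
    (S * T ^ j : SL(2, ℤ)) a b = (!![0, -1; 1, (j : ℤ)] : Matrix (Fin 2) (Fin 2) ℤ) a b := by
  show ((S * T ^ j : SL(2, ℤ)) : Matrix (Fin 2) (Fin 2) ℤ) a b = _
  rw [s16ub_ST_coe]

/-- `W_p (S T^j) = - [[1,j],[0,p]]`. -/
theorem s16ubW_mul_ST (j : ℕ) :
    s16ubW p * mapGL ℝ (S * T ^ j) =
      s16ubScalar (-1) (by norm_num) * heckeMatrix p j := by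
  apply Matrix.GeneralLinearGroup.ext
  intro a b
  simp only [Matrix.GeneralLinearGroup.coe_mul, val_s16ubW, val_s16ubScalar,
    val_heckeMatrix hp.out.ne_zero, Matrix.mul_apply, Fin.sum_univ_two, s16ub_mapGL_apply,
    s16ub_ST_apply]
  fin_cases a <;> fin_cases b <;> simp

/-- `W_p [[1,j],[0,p]] = p (S T^j)`. -/
theorem s16ubW_mul_heckeMatrix (j : ℕ) :
    s16ubW p * heckeMatrix p j =
      s16ubScalar (p : ℝ) (by exact_mod_cast hp.out.ne_zero) * mapGL ℝ (S * T ^ j) := by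
  apply Matrix.GeneralLinearGroup.ext
  intro a b
  simp only [Matrix.GeneralLinearGroup.coe_mul, val_s16ubW, val_s16ubScalar,
    val_heckeMatrix hp.out.ne_zero, Matrix.mul_apply, Fin.sum_univ_two, s16ub_mapGL_apply,
    s16ub_ST_apply]
  fin_cases a <;> fin_cases b <;> simp

/-- `W_p = S diag(p,1)`. -/
theorem s16ubW_eq : s16ubW p = mapGL ℝ S * heckeDiagMatrix p := by
  apply Matrix.GeneralLinearGroup.ext
  intro a b
  simp only [Matrix.GeneralLinearGroup.coe_mul, val_s16ubW,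
    val_heckeDiagMatrix hp.out.ne_zero, Matrix.mul_apply, Fin.sum_univ_two, s16ub_mapGL_apply]
  have hS : ((S : SL(2, ℤ)) : Matrix (Fin 2) (Fin 2) ℤ) = !![0, -1; 1, 0] := ModularGroup.coe_S
  have hS' : ∀ i j : Fin 2, (S : SL(2, ℤ)) i j = (!![0, -1; 1, 0] : Matrix (Fin 2) (Fin 2) ℤ) i j :=
    fun i j => by
      show ((S : SL(2, ℤ)) : Matrix (Fin 2) (Fin 2) ℤ) i j = _
      rw [hS]
  simp only [hS']
  fin_cases a <;> fin_cases b <;> simp

/-- `W_p` normalises `Γ₀(p)`. -/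
theorem s16ubW_normalizes (γ : SL(2, ℤ)) (hγ : γ ∈ Gamma0 p) :
    ∃ γ' ∈ Gamma0 p, s16ubW p * mapGL ℝ γ = mapGL ℝ γ' * s16ubW p := by
  rw [Gamma0_mem, ZMod.intCast_zmod_eq_zero_iff_dvd] at hγ
  obtain ⟨c', hc'⟩ := hγ
  have hdet : γ 0 0 * γ 1 1 - γ 0 1 * γ 1 0 = 1 := by
    have := γ.det_coe
    rwa [Matrix.det_fin_two] at this
  let γ' : SL(2, ℤ) := ⟨!![γ 1 1, -c'; -(p : ℤ) * γ 0 1, γ 0 0], by
    rw [Matrix.det_fin_two_of]
    rw [hc'] at hdet
    linarith⟩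
  have h00 : γ' 0 0 = γ 1 1 := rfl
  have h01 : γ' 0 1 = -c' := rfl
  have h10 : γ' 1 0 = -(p : ℤ) * γ 0 1 := rfl
  have h11 : γ' 1 1 = γ 0 0 := rfl
  refine ⟨γ', ?_, ?_⟩
  · rw [Gamma0_mem, h10]
    push_cast
    simp
  · apply Matrix.GeneralLinearGroup.ext
    intro a b
    simp only [Matrix.GeneralLinearGroup.coe_mul, val_s16ubW, Matrix.mul_apply, Fin.sum_univ_two,
      s16ub_mapGL_apply]
    fin_cases a <;> fin_cases b <;> simp [h00, h01, h10, h11, hc'] <;> ring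

end W

section Main

variable (p : ℕ) [hp : Fact p.Prime]

theorem s16ub_bdd_slash_heckeMatrix (k : ℤ) (j : ℕ) {g : ℍ → ℂ} (hg : IsBoundedAtImInfty g) :
    IsBoundedAtImInfty (g ∣[k] heckeMatrix p j) := by
  have hp0 : p ≠ 0 := hp.out.ne_zero
  have hpR : (0 : ℝ) < p := by exact_mod_cast hp.out.pos
  rw [isBoundedAtImInfty_iff] at hg ⊢
  obtain ⟨M, A, h⟩ := hg
  refine ⟨(p : ℝ)⁻¹ * M, p * A, fun τ hτ => ?_⟩
  rw [slash_heckeMatrix_apply k hp0, norm_mul, norm_inv, Complex.norm_natCast]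
  refine mul_le_mul_of_nonneg_left (h _ ?_) (inv_nonneg.mpr hpR.le)
  have him : (heckeMatrix p j • τ : ℍ).im = τ.im / p := by
    show ((heckeMatrix p j • τ : ℍ) : ℂ).im = τ.im / p
    rw [coe_heckeMatrix_smul hp0]
    have : ((τ : ℂ) + (j : ℂ)) / (p : ℂ) = ((p : ℝ)⁻¹ : ℝ) * ((τ : ℂ) + (j : ℂ)) := by
      push_cast; field_simp
    rw [this, Complex.im_ofReal_mul]
    simp [div_eq_inv_mul]
  rw [him, le_div_iff₀ hpR]
  linarith

theorem s16ub_bdd_slash_heckeDiagMatrix (k : ℤ) {g : ℍ → ℂ} (hg : IsBoundedAtImInfty g) :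
    IsBoundedAtImInfty (g ∣[k] heckeDiagMatrix p) := by
  have hp0 : p ≠ 0 := hp.out.ne_zero
  have hpR : (1 : ℝ) ≤ p := by exact_mod_cast hp.out.one_le
  rw [isBoundedAtImInfty_iff] at hg ⊢
  obtain ⟨M, A, h⟩ := hg
  refine ⟨‖(p : ℂ) ^ (k - 1)‖ * M, |A|, fun τ hτ => ?_⟩
  rw [slash_heckeDiagMatrix_apply k hp0, norm_mul]
  refine mul_le_mul_of_nonneg_left (h _ ?_) (norm_nonneg _)
  have him : (heckeDiagMatrix p • τ : ℍ).im = p * τ.im := by
    show ((heckeDiagMatrix p • τ : ℍ) : ℂ).im = p * τ.im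
    rw [coe_heckeDiagMatrix_smul hp0]
    have : ((p : ℂ)) * (τ : ℂ) = ((p : ℝ) : ℝ) * (τ : ℂ) := by push_cast; ring
    rw [this, Complex.im_ofReal_mul]
    rfl
  rw [him]
  have h1 : A ≤ τ.im := (le_abs_self A).trans hτ
  have h2 : (0 : ℝ) ≤ τ.im := τ.im_pos.le
  nlinarith

/-- `f ∣ W_p` is again a form of level `Γ₀(p)`. -/
theorem s16ubForm_slash_W {f : ℍ → ℂ} (hf : S16ubForm p 2 f) :
    S16ubForm p 2 (f ∣[(2 : ℤ)] s16ubW p) := by
  have hinv : ∀ γ ∈ Gamma0 p, (f ∣[(2 : ℤ)] s16ubW p) ∣[(2 : ℤ)] γ = f ∣[(2 : ℤ)] s16ubW p := by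
    intro γ hγ
    obtain ⟨γ', hγ', h⟩ := s16ubW_normalizes p γ hγ
    rw [SL_slash, ← SlashAction.slash_mul]
    show f ∣[(2 : ℤ)] (s16ubW p * mapGL ℝ γ) = _
    rw [h, SlashAction.slash_mul]
    congr 1
    exact hf.inv γ' hγ'
  refine ⟨hinv, hf.hol.slash 2 _, fun γ => ?_⟩
  obtain ⟨i, hi⟩ := s16ub_coset p γ
  have hγ : γ = (γ * (s16ubRep p i)⁻¹) * s16ubRep p i := by group
  rw [hγ, SlashAction.slash_mul, hinv _ hi]
  rcases i with _ | j
  · rw [s16ubRep_none, SlashAction.slash_one, s16ubW_eq, SlashAction.slash_mul]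
    exact s16ub_bdd_slash_heckeDiagMatrix p 2 (hf.bdd S)
  · rw [s16ubRep_some, SL_slash, ← SlashAction.slash_mul]
    show IsBoundedAtImInfty (f ∣[(2 : ℤ)] (s16ubW p * mapGL ℝ (S * T ^ (j : ℕ))))
    rw [s16ubW_mul_ST, SlashAction.slash_mul, s16ub_slash_scalar]
    exact s16ub_bdd_slash_heckeMatrix p 2 j hf.bdd_self

/-- `f ∣ W_p = - U_p f` for `f` of weight 2 and level `Γ₀(p)`. -/
theorem s16ub_slash_W {f : ℍ → ℂ} (hf : S16ubForm p 2 f) :
    f ∣[(2 : ℤ)] s16ubW p = -heckeU 2 p f := by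
  have h0 := s16ubTr_weight_two p (s16ubForm_slash_W p hf)
  rw [s16ubTr_eq] at h0
  have hterm : ∀ j : Fin p, (f ∣[(2 : ℤ)] s16ubW p) ∣[(2 : ℤ)] (S * T ^ (j : ℕ)) =
      f ∣[(2 : ℤ)] heckeMatrix p j := fun j => by
    rw [SL_slash, ← SlashAction.slash_mul]
    show f ∣[(2 : ℤ)] (s16ubW p * mapGL ℝ (S * T ^ (j : ℕ))) = _
    rw [s16ubW_mul_ST, SlashAction.slash_mul, s16ub_slash_scalar]
  simp only [hterm] at h0
  rw [Fin.sum_univ_eq_sum_range (fun j => f ∣[(2 : ℤ)] heckeMatrix p j) p, ← heckeU_def] at h0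
  exact eq_neg_of_add_eq_zero_left h0

/-- the conjugates: `f ∣ S T^j = - (U_p f) ∣ [[1,j],[0,p]]`. -/
theorem s16ub_conj {f : ℍ → ℂ} (hf : S16ubForm p 2 f) (j : ℕ) :
    f ∣[(2 : ℤ)] (S * T ^ j) = -((heckeU 2 p f) ∣[(2 : ℤ)] heckeMatrix p j) := by
  have h1 : (f ∣[(2 : ℤ)] s16ubW p) ∣[(2 : ℤ)] heckeMatrix p j = f ∣[(2 : ℤ)] (S * T ^ j) := by
    rw [← SlashAction.slash_mul, s16ubW_mul_heckeMatrix, SlashAction.slash_mul, s16ub_slash_scalar]
    rfl
  rw [← h1, s16ub_slash_W p hf, SlashAction.neg_slash]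

/-- pointwise form of `s16ub_conj`. -/
theorem s16ub_conj_apply {f : ℍ → ℂ} (hf : S16ubForm p 2 f) (j : ℕ) (τ : ℍ) :
    (f ∣[(2 : ℤ)] (S * T ^ j)) τ = -((p : ℂ)⁻¹ * heckeU 2 p f (heckeMatrix p j • τ)) := by
  rw [s16ub_conj p hf j, Pi.neg_apply, slash_heckeMatrix_apply 2 hp.out.ne_zero]

end Main

end Fermat.Agent.S16
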