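/-
S16 / UB core (helper11): the `q`-expansion of the explicit trace.

`HasCuspExp 1 F A`, `HasCuspExp p (F ∣[k] S) B`  ⟹  `HasCuspExp 1 (s16ubTr p k F) (A + p • contract_p B)`
where `contract_p B = ∑ B_{pm} q^m` (`s16ubContract`).
-/
import Fermat.Agent.S16.UB.Conj
import Fermat.Agent.S24.CuspExp

set_option autoImplicit false
set_option linter.style.haveILetI false
set_option linter.unusedSectionVars false

noncomputable section

namespace Fermat.Agent.S16

open UpperHalfPlane ModularForm ModularGroup CongruenceSubgroup Matrix.SpecialLinearGroup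
  Fermat.Agent.S24
open scoped MatrixGroups ModularForm Manifold Real

/-- Contraction of a Laurent series: the coefficients at the multiples of `n` (`U_n` on series). -/
def s16ubContract {R : Type*} [CommRing R] (n : ℕ) [NeZero n] (c : LaurentSeries R) :
    LaurentSeries R :=
  HahnSeries.ofSuppBddBelow (fun m : ℤ => c.coeff ((n : ℤ) * m)) (by
    have hwf : (c.support).IsWF := c.isPWO_support.isWF
    rcases (c.support).eq_empty_or_nonempty with he | hne
    · refine ⟨0, fun m hm => ?_⟩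
      exfalso
      have : ((n : ℤ) * m) ∈ c.support := hm
      rw [he] at this
      exact this
    · refine ⟨min (hwf.min hne) 0, fun m hm => ?_⟩
      have hm' : ((n : ℤ) * m) ∈ c.support := hm
      have h1 : hwf.min hne ≤ (n : ℤ) * m := hwf.min_le hne hm'
      by_contra hlt
      push Not at hlt
      have hm0 : m < 0 := lt_of_lt_of_le hlt (min_le_right _ _)
      have hn1 : (1 : ℤ) ≤ n := by exact_mod_cast Nat.one_le_iff_ne_zero.mpr (NeZero.ne n)
      have h2 : (n : ℤ) * m ≤ m := by nlinarith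
      have h3 : m < hwf.min hne := lt_of_lt_of_le hlt (min_le_left _ _)
      linarith)

@[simp] theorem s16ubContract_coeff {R : Type*} [CommRing R] (n : ℕ) [NeZero n]
    (c : LaurentSeries R) (m : ℤ) : (s16ubContract n c).coeff m = c.coeff ((n : ℤ) * m) := rfl

theorem s16ubContract_add {R : Type*} [CommRing R] (n : ℕ) [NeZero n] (c d : LaurentSeries R) :
    s16ubContract n (c + d) = s16ubContract n c + s16ubContract n d := by
  ext m; simp

theorem s16ubContract_smul {R : Type*} [CommRing R] (n : ℕ) [NeZero n] (r : R)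
    (c : LaurentSeries R) : s16ubContract n (r • c) = r • s16ubContract n c := by
  ext m; simp

/-- sum of the `m`-th powers of the `p`-th roots of unity. -/
theorem s16ub_sum_exp (p : ℕ) (hp : p ≠ 0) (m : ℤ) :
    ∑ j ∈ Finset.range p, Complex.exp (2 * π * Complex.I * m * (j : ℂ) / p) =
      if (p : ℤ) ∣ m then (p : ℂ) else 0 := by
  have hpC : (p : ℂ) ≠ 0 := by exact_mod_cast hp
  set ζ : ℂ := Complex.exp (2 * π * Complex.I / p) with hζ
  have hprim : IsPrimitiveRoot ζ p := Complex.isPrimitiveRoot_exp p hp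
  have hterm : ∀ j : ℕ, Complex.exp (2 * π * Complex.I * m * (j : ℂ) / p) = (ζ ^ m) ^ j := by
    intro j
    rw [hζ, ← Complex.exp_int_mul, ← Complex.exp_nat_mul]
    congr 1
    field_simp
  simp only [hterm]
  split_ifs with hdvd
  · have h1 : ζ ^ m = 1 := (hprim.zpow_eq_one_iff_dvd m).mpr hdvd
    simp [h1]
  · have h1 : ζ ^ m ≠ 1 := fun h => hdvd ((hprim.zpow_eq_one_iff_dvd m).mp h)
    rw [geom_sum_eq h1]
    have h2 : (ζ ^ m) ^ p = 1 := by
      rw [← zpow_natCast, ← zpow_mul, mul_comm, zpow_mul, zpow_natCast, hprim.pow_eq_one, one_zpow]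
    rw [h2, sub_self, zero_div]

variable (p : ℕ) [hp : Fact p.Prime]

instance s16ub_neZero : NeZero p := ⟨hp.out.ne_zero⟩

theorem s16ub_slash_T_pow_apply (k : ℤ) (g : ℍ → ℂ) (j : ℕ) (τ : ℍ) :
    (g ∣[k] (T ^ j : SL(2, ℤ))) τ = g ((T ^ j : SL(2, ℤ)) • τ) := by
  rw [SL_slash_apply]
  have hden : denom ((T ^ j : SL(2, ℤ)) : GL (Fin 2) ℝ) τ = 1 := by
    rw [ModularGroup.denom_apply]
    have hT : ((T ^ j : SL(2, ℤ)) : Matrix (Fin 2) (Fin 2) ℤ) = !![1, (j : ℤ); 0, 1] := by
      have := ModularGroup.coe_T_zpow (j : ℤ)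
      rw [zpow_natCast] at this
      exact this
    have h10 : (T ^ j : SL(2, ℤ)) 1 0 = 0 := by
      show ((T ^ j : SL(2, ℤ)) : Matrix (Fin 2) (Fin 2) ℤ) 1 0 = 0
      rw [hT]; simp
    have h11 : (T ^ j : SL(2, ℤ)) 1 1 = 1 := by
      show ((T ^ j : SL(2, ℤ)) : Matrix (Fin 2) (Fin 2) ℤ) 1 1 = 1
      rw [hT]; simp
    rw [h10, h11]; simp
  rw [hden, one_zpow, mul_one]

theorem s16ub_coe_T_pow_smul (j : ℕ) (τ : ℍ) :
    (((T ^ j : SL(2, ℤ)) • τ : ℍ) : ℂ) = (τ : ℂ) + j := by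
  have := ModularGroup.coe_T_zpow_smul_eq (z := τ) (n := (j : ℤ))
  rw [zpow_natCast] at this
  rw [this]; push_cast; ring

/-- core: summing a function with an expansion in `exp(2πiτ/p)` over the `p` shifts `τ ↦ τ + j`. -/
theorem s16ub_hasCuspExp_sum_shift {φ : ℍ → ℂ} {B : LaurentSeries ℂ} (hB : HasCuspExp p φ B) :
    HasCuspExp 1 (fun τ => ∑ j : Fin p, φ ((T ^ (j : ℕ) : SL(2, ℤ)) • τ))
      ((p : ℂ) • s16ubContract p B) := by
  have hp0 : p ≠ 0 := hp.out.ne_zero
  have hpC : (p : ℂ) ≠ 0 := by exact_mod_cast hp0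
  intro τ
  have hj : ∀ j : Fin p, HasSum (fun m : ℤ => B.coeff m *
      Complex.exp (2 * π * Complex.I * m * ((τ : ℂ) + (j : ℕ)) / p))
      (φ ((T ^ (j : ℕ) : SL(2, ℤ)) • τ)) := by
    intro j
    have := hB ((T ^ (j : ℕ) : SL(2, ℤ)) • τ)
    rw [s16ub_coe_T_pow_smul] at this
    exact this
  have hsum := hasSum_sum (s := Finset.univ) (fun j _ => hj j)
  have hterm : ∀ m : ℤ, (∑ j : Fin p, B.coeff m *
      Complex.exp (2 * π * Complex.I * m * ((τ : ℂ) + ((j : ℕ) : ℂ)) / p)) =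
      if (p : ℤ) ∣ m then (p : ℂ) * B.coeff m * Complex.exp (2 * π * Complex.I * m * τ / p)
      else 0 := by
    intro m
    have h1 : ∀ j : Fin p, B.coeff m *
        Complex.exp (2 * π * Complex.I * m * ((τ : ℂ) + ((j : ℕ) : ℂ)) / p) =
        (B.coeff m * Complex.exp (2 * π * Complex.I * m * τ / p)) *
          Complex.exp (2 * π * Complex.I * m * ((j : ℕ) : ℂ) / p) := by
      intro j
      have he : Complex.exp (2 * π * Complex.I * m * ((τ : ℂ) + ((j : ℕ) : ℂ)) / p) =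
          Complex.exp (2 * π * Complex.I * m * τ / p) *
            Complex.exp (2 * π * Complex.I * m * ((j : ℕ) : ℂ) / p) := by
        rw [← Complex.exp_add]
        congr 1
        ring
      rw [he]; ring
    simp only [h1]
    rw [← Finset.mul_sum, Fin.sum_univ_eq_sum_range
      (fun j => Complex.exp (2 * π * Complex.I * m * (j : ℂ) / p)) p, s16ub_sum_exp p hp0 m]
    split_ifs <;> ring
  simp only [hterm] at hsum
  have hinj : Function.Injective (fun m' : ℤ => (p : ℤ) * m') :=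
    mul_right_injective₀ (by exact_mod_cast hp0)
  have := (hinj.hasSum_iff (f := fun m : ℤ =>
    if (p : ℤ) ∣ m then (p : ℂ) * B.coeff m * Complex.exp (2 * π * Complex.I * m * τ / p)
    else 0) (a := ∑ j : Fin p, φ ((T ^ (j : ℕ) : SL(2, ℤ)) • τ)) (fun m hm => by
      rw [if_neg]
      rintro ⟨m', rfl⟩
      exact hm ⟨m', rfl⟩)).mpr hsum
  convert this using 2 with m'
  simp only [Function.comp_apply, dvd_mul_right, if_true, HahnSeries.coeff_smul,
    s16ubContract_coeff, smul_eq_mul]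
  congr 2
  push_cast
  field_simp

/-- the `q`-expansion of the trace. -/
theorem s16ub_hasCuspExp_tr (k : ℤ) {F : ℍ → ℂ} {A B : LaurentSeries ℂ}
    (hA : HasCuspExp 1 F A) (hB : HasCuspExp p (F ∣[k] S) B) :
    HasCuspExp 1 (s16ubTr p k F) (A + (p : ℂ) • s16ubContract p B) := by
  have h1 := s16ub_hasCuspExp_sum_shift p hB
  have h2 : s16ubTr p k F = F + fun τ => ∑ j : Fin p, (F ∣[k] S) ((T ^ (j : ℕ) : SL(2, ℤ)) • τ) := by
    rw [s16ubTr_eq]
    congr 1
    ext τ
    rw [Finset.sum_apply]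
    refine Finset.sum_congr rfl fun j _ => ?_
    rw [SlashAction.slash_mul, s16ub_slash_T_pow_apply]
  rw [h2]
  exact hA.add h1

/-- substitution `τ ↦ τ/p`. -/
theorem s16ub_hasCuspExp_comp_div {g : ℍ → ℂ} {H : LaurentSeries ℂ} (hH : HasCuspExp 1 g H) :
    HasCuspExp p (fun τ => g (heckeMatrix p 0 • τ)) H := by
  intro τ
  have := hH (heckeMatrix p 0 • τ)
  rw [coe_heckeMatrix_smul hp.out.ne_zero] at this
  convert this using 3 with m
  push_cast
  ring_nf

theorem s16ub_heckeMatrix_smul_eq (j : ℕ) (τ : ℍ) :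
    heckeMatrix p j • τ = heckeMatrix p 0 • ((T ^ j : SL(2, ℤ)) • τ) := by
  apply UpperHalfPlane.ext
  rw [coe_heckeMatrix_smul hp.out.ne_zero, coe_heckeMatrix_smul hp.out.ne_zero,
    s16ub_coe_T_pow_smul]
  push_cast
  ring

/-- `U_p` on expansions. -/
theorem s16ub_hasCuspExp_heckeU (k : ℤ) {f : ℍ → ℂ} {A : LaurentSeries ℂ} (hA : HasCuspExp 1 f A) :
    HasCuspExp 1 (heckeU k p f) (s16ubContract p A) := by
  have hp0 : p ≠ 0 := hp.out.ne_zero
  have hpC : (p : ℂ) ≠ 0 := by exact_mod_cast hp0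
  have h1 := s16ub_hasCuspExp_sum_shift p (s16ub_hasCuspExp_comp_div p hA)
  have h2 : heckeU k p f = fun τ => (p : ℂ)⁻¹ *
      ∑ j : Fin p, f (heckeMatrix p 0 • ((T ^ (j : ℕ) : SL(2, ℤ)) • τ)) := by
    ext τ
    rw [heckeU_apply k hp0, ← Fin.sum_univ_eq_sum_range (fun j => f (heckeMatrix p j • τ)) p]
    congr 1
    refine Finset.sum_congr rfl fun j _ => ?_
    rw [s16ub_heckeMatrix_smul_eq]
  rw [h2]
  intro τ
  have := (h1 τ).mul_left ((p : ℂ)⁻¹)
  have hfun : (fun m : ℤ => (s16ubContract p A).coeff m *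
      Complex.exp (2 * π * Complex.I * m * τ / (1 : ℕ))) =
      fun m : ℤ => (p : ℂ)⁻¹ * (((p : ℂ) • s16ubContract p A).coeff m *
        Complex.exp (2 * π * Complex.I * m * τ / (1 : ℕ))) := by
    funext m
    rw [HahnSeries.coeff_smul, smul_eq_mul]
    field_simp
  show HasSum _ _
  rw [hfun]
  exact this

/-- the expansion at the other cusp of a weight-2 form of level `Γ₀(p)`:
`(f ∣ S)(τ) = - p⁻¹ (U_p f)(τ/p)`. -/
theorem s16ub_hasCuspExp_slash_S {f : ℍ → ℂ} (hf : S16ubForm p 2 f) {A : LaurentSeries ℂ}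
    (hA : HasCuspExp 1 f A) :
    HasCuspExp p (f ∣[(2 : ℤ)] S) (-((p : ℂ)⁻¹ • s16ubContract p A)) := by
  have h0 : f ∣[(2 : ℤ)] S = fun τ => -((p : ℂ)⁻¹ * heckeU 2 p f (heckeMatrix p 0 • τ)) := by
    ext τ
    have := s16ub_conj_apply p hf 0 τ
    rwa [pow_zero, mul_one] at this
  rw [h0]
  have h1 := s16ub_hasCuspExp_comp_div p (s16ub_hasCuspExp_heckeU p 2 hA)
  intro τ
  have := ((h1 τ).mul_left ((p : ℂ)⁻¹)).neg
  have hfun : (fun m : ℤ => (-((p : ℂ)⁻¹ • s16ubContract p A)).coeff m *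
      Complex.exp (2 * π * Complex.I * m * τ / p)) =
      fun m : ℤ => -((p : ℂ)⁻¹ * ((s16ubContract p A).coeff m *
        Complex.exp (2 * π * Complex.I * m * τ / p))) := by
    funext m
    rw [HahnSeries.coeff_neg, HahnSeries.coeff_smul, smul_eq_mul]
    ring
  show HasSum _ _
  rw [hfun]
  exact this

end Fermat.Agent.S16
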