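/-
S16 / UB core (helper11), row 392 = TR: `s16ub_trace_mul`, the statement of `s16_trace_mul`
(S16/Spec.lean, helper19 fc78ab3) with `s16U p φ` unfolded to `PowerSeries.mk fun n => coeff (p * n) φ`
(so `s16_trace_mul p F G := s16ub_trace_mul p F G` by definitional unfolding).

Also exported: the bridge `s16ub_hasCuspExp_form` (an `S16ubForm` has the cusp expansion given by its Mathlib
`qExpansion 1`), products of forms, and `s16ub_heckeU_heckeU` (`U_p² = 1` on `M₂(Γ₀(p))`, as `q`-expansions).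
-/
import Fermat.Agent.S16.UB.TraceExp
import Fermat.Agent.S20.CuspDiv

set_option autoImplicit false
set_option linter.style.haveILetI false
set_option linter.unusedSectionVars false

noncomputable section

namespace Fermat.Agent.S16

open UpperHalfPlane ModularForm ModularGroup CongruenceSubgroup Matrix.SpecialLinearGroup
  Fermat.Agent.S24 Fermat.Agent.S20 EisensteinSeries Filter
open scoped MatrixGroups ModularForm Manifold Real Topology

/-- `U_p` on power series (same body as `s16U` of S16/Spec.lean). -/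
def s16ubU (p : ℕ) (φ : PowerSeries ℂ) : PowerSeries ℂ :=
  PowerSeries.mk fun n => PowerSeries.coeff (p * n) φ

@[simp] theorem s16ubU_coeff (p : ℕ) (φ : PowerSeries ℂ) (n : ℕ) :
    PowerSeries.coeff n (s16ubU p φ) = PowerSeries.coeff (p * n) φ := by
  rw [s16ubU, PowerSeries.coeff_mk]

local notation "ofPS" => HahnSeries.ofPowerSeries ℤ ℂ

theorem s16ub_ofPS_coeff (φ : PowerSeries ℂ) (m : ℤ) :
    (ofPS φ).coeff m = if m < 0 then 0 else PowerSeries.coeff m.natAbs φ :=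
  PowerSeries.coeff_coe (f := φ) m

/-- contraction of a power series. -/
theorem s16ubContract_ofPS (p : ℕ) [NeZero p] (φ : PowerSeries ℂ) :
    s16ubContract p (ofPS φ) = ofPS (s16ubU p φ) := by
  ext m
  rw [s16ubContract_coeff, s16ub_ofPS_coeff, s16ub_ofPS_coeff]
  have hp : (0 : ℤ) < p := by exact_mod_cast Nat.pos_of_ne_zero (NeZero.ne p)
  by_cases hm : m < 0
  · rw [if_pos hm, if_pos (mul_neg_of_pos_of_neg hp hm)]
  · rw [if_neg hm, if_neg (by push Not at hm ⊢; positivity), s16ubU_coeff]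
    congr 1
    rw [Int.natAbs_mul, Int.natAbs_natCast]

variable (p : ℕ) [hp : Fact p.Prime]

/-- an `S16ubForm` is `1`-periodic. -/
theorem S16ubForm.periodic {k : ℤ} {f : ℍ → ℂ} (hf : S16ubForm p k f) (τ : ℍ) :
    f ((T ^ ((1 : ℕ) : ℤ) : SL(2, ℤ)) • τ) = f τ := by
  have hT : (T : SL(2, ℤ)) ∈ Gamma0 p := by
    rw [Gamma0_mem]
    have : (T : SL(2, ℤ)) 1 0 = 0 := by
      show ((T : SL(2, ℤ)) : Matrix (Fin 2) (Fin 2) ℤ) 1 0 = 0
      rw [ModularGroup.coe_T]; simp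
    rw [this]; simp
  have h1 := congrFun (hf.inv T hT) τ
  have h2 := s16ub_slash_T_pow_apply k f 1 τ
  rw [pow_one] at h2
  rw [Nat.cast_one, zpow_one, ← h2, h1]

/-- the cusp expansion of an `S16ubForm` is its Mathlib `q`-expansion. -/
theorem s16ub_hasCuspExp_form {k : ℤ} {f : ℍ → ℂ} (hf : S16ubForm p k f) :
    HasCuspExp 1 f (ofPS (qExpansion 1 f)) := by
  have := cuspdiv_exists_of_bounded (h := 1) hf.hol (S16ubForm.periodic p hf) hf.bdd_self
  simpa using this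

/-- products of forms. -/
theorem S16ubForm.mul {k₁ k₂ : ℤ} {f g : ℍ → ℂ} (hf : S16ubForm p k₁ f) (hg : S16ubForm p k₂ g) :
    S16ubForm p (k₁ + k₂) (f * g) where
  inv γ hγ := by rw [mul_slash_SL2, hf.inv γ hγ, hg.inv γ hγ]
  hol := hf.hol.mul hg.hol
  bdd γ := by
    rw [mul_slash_SL2]
    exact (hf.bdd γ).mul (hg.bdd γ)

/-- a level-one form is an `S16ubForm`. -/
theorem s16ubForm_of_levelOne {k : ℤ} (f : ModularForm 𝒮ℒ k) : S16ubForm p k (f : ℍ → ℂ) where
  inv γ _ := slash_eq_of_levelOne f γ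
  hol := f.holo'
  bdd γ := by
    rw [slash_eq_of_levelOne f γ]
    exact ModularFormClass.bdd_at_infty f

theorem s16ub_ofPS_C_mul (a : ℂ) (φ : PowerSeries ℂ) :
    ofPS (PowerSeries.C a * φ) = a • ofPS φ := by
  rw [map_mul, HahnSeries.ofPowerSeries_C, HahnSeries.C_mul_eq_smul]

/-- **TR** (row 392): the statement of `s16_trace_mul` with `s16U` unfolded. -/
theorem s16ub_trace_mul (F G : ModularForm (CongruenceSubgroup.Gamma0 p) 2) :
    ∃ c : ℂ, qExpansion 1 F * qExpansion 1 G +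
        PowerSeries.C ((p : ℂ)⁻¹) *
          (PowerSeries.mk fun n => PowerSeries.coeff (p * n)
            ((PowerSeries.mk fun n => PowerSeries.coeff (p * n) (qExpansion 1 F)) *
              (PowerSeries.mk fun n => PowerSeries.coeff (p * n) (qExpansion 1 G)))) =
      PowerSeries.C c * qExpansion 1 E₄ := by
  have hp0 : p ≠ 0 := hp.out.ne_zero
  have hpC : (p : ℂ) ≠ 0 := by exact_mod_cast hp0
  have hF : S16ubForm p 2 (F : ℍ → ℂ) := s16ubForm_of_modularForm F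
  have hG : S16ubForm p 2 (G : ℍ → ℂ) := s16ubForm_of_modularForm G
  have hFG : S16ubForm p 4 ((F : ℍ → ℂ) * (G : ℍ → ℂ)) := by
    have := hF.mul p hG
    have h4 : (2 : ℤ) + 2 = 4 := by norm_num
    rwa [h4] at this
  have hAF := s16ub_hasCuspExp_form p hF
  have hAG := s16ub_hasCuspExp_form p hG
  have hBF := s16ub_hasCuspExp_slash_S p hF hAF
  have hBG := s16ub_hasCuspExp_slash_S p hG hAG
  have hslash : ((F : ℍ → ℂ) * (G : ℍ → ℂ)) ∣[(4 : ℤ)] S =
      ((F : ℍ → ℂ) ∣[(2 : ℤ)] S) * ((G : ℍ → ℂ) ∣[(2 : ℤ)] S) := by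
    have h4 : (4 : ℤ) = 2 + 2 := by norm_num
    rw [h4, mul_slash_SL2]
  have hB := hBF.mul hBG
  rw [← hslash] at hB
  have htr := s16ub_hasCuspExp_tr p 4 (hAF.mul hAG) hB
  -- level one, weight 4
  have hE4 : Tendsto (E₄ : ℍ → ℂ) atImInfty (nhds 1) := tendsto_E₄_atImInfty
  have hE40 : (E₄ : ModularForm 𝒮ℒ 4) ≠ 0 := by
    rintro h0
    have h1 : Tendsto (fun _ : ℍ => (0 : ℂ)) atImInfty (nhds 1) := by
      have : (E₄ : ℍ → ℂ) = fun _ => 0 := by rw [h0]; rfl
      rwa [this] at hE4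
    exact one_ne_zero (tendsto_nhds_unique h1 tendsto_const_nhds)
  obtain ⟨c, hc⟩ := (finrank_eq_one_iff_of_nonzero' (E₄ : ModularForm 𝒮ℒ 4) hE40).mp
    (Module.rank_eq_one_iff_finrank_eq_one.mp ModularForm.levelOne_weight_four_rank_one)
    (s16ubTrForm p hFG)
  have hfun : s16ubTr p 4 ((F : ℍ → ℂ) * (G : ℍ → ℂ)) = (fun _ : ℍ => c) * (E₄ : ℍ → ℂ) := by
    rw [← coe_s16ubTrForm p hFG, ← hc]
    rfl
  have hE4exp := s16ub_hasCuspExp_form p (s16ubForm_of_levelOne p (E₄ : ModularForm 𝒮ℒ 4))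
  have hrhs := (HasCuspExp.const (h := 1) c).mul hE4exp
  rw [hfun] at htr
  have hser := htr.unique hrhs
  refine ⟨c, HahnSeries.ofPowerSeries_injective (Γ := ℤ) (R := ℂ) ?_⟩
  -- compare
  have hcontrF := s16ubContract_ofPS p (qExpansion 1 (F : ℍ → ℂ))
  have hcontrG := s16ubContract_ofPS p (qExpansion 1 (G : ℍ → ℂ))
  rw [hcontrF, hcontrG] at hser
  have hprod : (-((p : ℂ)⁻¹ • ofPS (s16ubU p (qExpansion 1 (F : ℍ → ℂ))))) *
      (-((p : ℂ)⁻¹ • ofPS (s16ubU p (qExpansion 1 (G : ℍ → ℂ))))) =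
      ((p : ℂ)⁻¹ * (p : ℂ)⁻¹) • ofPS (s16ubU p (qExpansion 1 (F : ℍ → ℂ)) *
        s16ubU p (qExpansion 1 (G : ℍ → ℂ))) := by
    rw [neg_mul_neg, ← HahnSeries.C_mul_eq_smul, ← HahnSeries.C_mul_eq_smul,
      ← HahnSeries.C_mul_eq_smul, map_mul, map_mul]
    ring
  rw [hprod, s16ubContract_smul, s16ubContract_ofPS, smul_smul] at hser
  have hp3 : (p : ℂ) * ((p : ℂ)⁻¹ * (p : ℂ)⁻¹) = (p : ℂ)⁻¹ := by field_simp
  rw [hp3] at hser
  rw [map_add, map_mul, s16ub_ofPS_C_mul, s16ub_ofPS_C_mul]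
  rw [HahnSeries.C_mul_eq_smul] at hser
  exact hser

end Fermat.Agent.S16
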