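/-
S16 / UB core, leaf H-SMALL (row 466, helper16): `s16_ub_h_small` VERBATIM from UB/Spec2.lean
(helper11 7ab99a4): `v₃(p+1) ≤ 2 ⟹ ¬ S16Unit p 3 2`.

From `s16ub_trace_mul p G G` and `s16ub_U_U p G`: with `A = qExp G = 1 + Σ 9 s_n qⁿ`, `s_n ∈ ℤ_(3)`,
constant terms give `c = 1 + p⁻¹`, the coefficients of `q¹` give
`(p+1) · 2 · (3 s₁ - 40) = -27 t`, `t = Σ_{i+j=p, i,j ≥ 1} s_{pi} s_{pj} ∈ ℤ_(3)`; `v₃(3 s₁ - 40) = 0`.
-/
import Fermat.Agent.S16.UB.Trace
import Fermat.Agent.S16.UB.UU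
import Fermat.Agent.S16.UB.Zl
import Fermat.Agent.S16.Defs

set_option autoImplicit false
set_option linter.unusedVariables false

noncomputable section

namespace Fermat.Agent.S16

open UpperHalfPlane ModularForm

section Aux

theorem s16hs_coeff_zero_mul (X Y : PowerSeries ℂ) :
    PowerSeries.coeff 0 (X * Y) = PowerSeries.coeff 0 X * PowerSeries.coeff 0 Y := by
  rw [PowerSeries.coeff_mul, Finset.Nat.antidiagonal_zero, Finset.sum_singleton]

theorem s16hs_coeff_one_mul (X Y : PowerSeries ℂ) :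
    PowerSeries.coeff 1 (X * Y) =
      PowerSeries.coeff 0 X * PowerSeries.coeff 1 Y +
        PowerSeries.coeff 1 X * PowerSeries.coeff 0 Y := by
  rw [PowerSeries.coeff_mul]
  simp [Finset.Nat.antidiagonal_succ]

/-- the interior of the antidiagonal -/
def s16hsInt (p : ℕ) : Finset (ℕ × ℕ) :=
  (Finset.HasAntidiagonal.antidiagonal p).filter fun x => x.1 ≠ 0 ∧ x.2 ≠ 0

theorem s16hs_coeff_mul_split (p : ℕ) (hp : p ≠ 0) (X : PowerSeries ℂ) :
    PowerSeries.coeff p (X * X) =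
      2 * (PowerSeries.coeff 0 X * PowerSeries.coeff p X) +
        ∑ x ∈ s16hsInt p, PowerSeries.coeff x.1 X * PowerSeries.coeff x.2 X := by
  classical
  rw [PowerSeries.coeff_mul, s16hsInt,
    ← Finset.sum_filter_add_sum_filter_not (Finset.HasAntidiagonal.antidiagonal p)
      (fun x : ℕ × ℕ => x.1 ≠ 0 ∧ x.2 ≠ 0), add_comm]
  congr 1
  have hset : (Finset.HasAntidiagonal.antidiagonal p).filter (fun x : ℕ × ℕ => ¬ (x.1 ≠ 0 ∧ x.2 ≠ 0)) =
      {((0 : ℕ), p), (p, (0 : ℕ))} := by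
    ext x
    obtain ⟨i, j⟩ := x
    rw [Finset.mem_filter, Finset.HasAntidiagonal.mem_antidiagonal]
    simp only [Finset.mem_insert,
      Finset.mem_singleton, Prod.mk.injEq, ne_eq, not_and_or, not_not]
    constructor
    · rintro ⟨hij, h | h⟩
      · left; exact ⟨h, by omega⟩
      · right; exact ⟨by omega, h⟩
    · rintro (⟨rfl, rfl⟩ | ⟨rfl, rfl⟩)
      · exact ⟨by omega, Or.inl rfl⟩
      · exact ⟨by omega, Or.inr rfl⟩
  rw [hset, Finset.sum_pair]
  · ring
  · intro h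
    exact hp (Prod.mk.inj h).1.symm

theorem s16hs_val_natCast (n : ℕ) (h : ¬ 3 ∣ n) : padicValRat 3 (n : ℚ) = 0 := by
  rw [padicValRat.of_nat, padicValNat.eq_zero_of_not_dvd h]
  rfl

end Aux

/-- **LEAF H-SMALL.** -/
theorem s16_ub_h_small (p : ℕ) [Fact p.Prime] (hp : 5 ≤ p) (h27 : ¬ 27 ∣ p + 1) :
    ¬ S16Unit p 3 2 := by
  rintro ⟨G, h0, hn⟩
  have hp0 : p ≠ 0 := (Fact.out : p.Prime).ne_zero
  have hpC : (p : ℂ) ≠ 0 := by exact_mod_cast hp0
  have hpQ : (p : ℚ) ≠ 0 := by exact_mod_cast hp0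
  -- `3`-integral coefficients
  have key : ∀ n : ℕ, ∃ s : ℚ, s ∈ s16ucZl 3 ∧
      (1 ≤ n → ModularFormClass.qCoeff G n = ((9 * s : ℚ) : ℂ)) := by
    intro n
    by_cases hn1 : 1 ≤ n
    · obtain ⟨r, hr, hv⟩ := hn n hn1
      obtain ⟨s, hs, hrs⟩ := s16uc_exists_eq_pow_mul (ℓ := 3) hv
      refine ⟨s, hs, fun _ => ?_⟩
      rw [hr, hrs]
      norm_num
    · exact ⟨0, zero_mem _, fun h => absurd h hn1⟩
  choose s hs hsn using key
  set A : PowerSeries ℂ := qExpansion 1 (G : ℍ → ℂ) with hA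
  have hA0 : PowerSeries.coeff 0 A = 1 := h0
  have hAn : ∀ n, 1 ≤ n → PowerSeries.coeff n A = ((9 * s n : ℚ) : ℂ) := hsn
  obtain ⟨c, hc⟩ := s16ub_trace_mul p G G
  have hUU := s16ub_U_U p G
  rw [← hA] at hc hUU
  set UA : PowerSeries ℂ := PowerSeries.mk fun n => PowerSeries.coeff (p * n) A with hUA
  have hUAn : ∀ n, PowerSeries.coeff n UA = PowerSeries.coeff (p * n) A := fun n => by
    rw [hUA, PowerSeries.coeff_mk]
  have hUA0 : PowerSeries.coeff 0 UA = 1 := by rw [hUAn, mul_zero, hA0]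
  have hUAp : PowerSeries.coeff p UA = PowerSeries.coeff 1 A := by
    have := congrArg (PowerSeries.coeff 1) hUU
    rw [PowerSeries.coeff_mk, mul_one] at this
    exact this
  -- the constant `c`
  have hE0 : PowerSeries.coeff 0 (qExpansion 1 (E₄ : ℍ → ℂ)) = 1 :=
    EisensteinSeries.E_qExpansion_coeff_zero (by norm_num) ⟨2, rfl⟩
  have hE1 : PowerSeries.coeff 1 (qExpansion 1 (E₄ : ℍ → ℂ)) = 240 := E₄_qExpansion_coeff_one
  have hc0 : c = 1 + (p : ℂ)⁻¹ := by
    have := congrArg (PowerSeries.coeff 0) hc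
    rw [map_add, s16hs_coeff_zero_mul, PowerSeries.coeff_C_mul, PowerSeries.coeff_C_mul,
      PowerSeries.coeff_mk, mul_zero, s16hs_coeff_zero_mul, hA0, hUA0, hE0] at this
    linear_combination (-1 : ℂ) * this
  -- the coefficient of `q`
  have hc1 := congrArg (PowerSeries.coeff 1) hc
  rw [map_add, s16hs_coeff_one_mul, PowerSeries.coeff_C_mul, PowerSeries.coeff_C_mul,
    PowerSeries.coeff_mk, mul_one, s16hs_coeff_mul_split p hp0, hA0, hUA0, hUAp, hE1, hc0,
    hAn 1 le_rfl] at hc1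
  -- the interior sum
  set t : ℚ := ∑ x ∈ s16hsInt p, s (p * x.1) * s (p * x.2) with ht
  have htZ : t ∈ s16ucZl 3 :=
    Subring.sum_mem _ fun x _ => Subring.mul_mem _ (hs _) (hs _)
  have hS : ∑ x ∈ s16hsInt p, PowerSeries.coeff x.1 UA * PowerSeries.coeff x.2 UA =
      ((81 * t : ℚ) : ℂ) := by
    rw [ht, Finset.mul_sum, Rat.cast_sum]
    apply Finset.sum_congr rfl
    intro x hx
    rw [s16hsInt, Finset.mem_filter] at hx
    have h1 : 1 ≤ p * x.1 := Nat.one_le_iff_ne_zero.mpr (Nat.mul_ne_zero hp0 hx.2.1)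
    have h2 : 1 ≤ p * x.2 := Nat.one_le_iff_ne_zero.mpr (Nat.mul_ne_zero hp0 hx.2.2)
    rw [hUAn, hUAn, hAn _ h1, hAn _ h2]
    push_cast
    ring
  rw [hS] at hc1
  -- back to `ℚ`
  have hQ : (2 * (9 * s 1) + (p : ℚ)⁻¹ * (2 * (9 * s 1) + 81 * t) : ℚ) =
      (1 + (p : ℚ)⁻¹) * 240 := by
    apply Rat.cast_injective (α := ℂ)
    push_cast
    rw [← hc1]
    push_cast
    ring
  have hpinv : (p : ℚ)⁻¹ * p = 1 := inv_mul_cancel₀ hpQ
  have hmain : ((p + 1 : ℕ) : ℚ) * (2 * (3 * s 1 - 40)) = -(27 * t) := by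
    push_cast
    linear_combination ((p : ℚ) / 3) * hQ - (6 * s 1 + 27 * t - 80) * hpinv
  -- valuations
  have e3 : padicValRat 3 (3 : ℚ) = 1 := by
    have := padicValRat.self (p := 3) (by norm_num)
    exact_mod_cast this
  have e40 : padicValRat 3 (40 : ℚ) = 0 := by
    have := s16hs_val_natCast 40 (by norm_num)
    exact_mod_cast this
  have e40' : padicValRat 3 (-40 : ℚ) = 0 := by rw [padicValRat.neg, e40]
  have hu0 : (3 * s 1 - 40 : ℚ) ≠ 0 := by
    intro h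
    have h1 : s 1 = 40 / 3 := by linarith
    have h2 := (s16uc_mem_zl_iff (ℓ := 3)).mp (hs 1)
    rw [h1, padicValRat.div (by norm_num) (by norm_num), e40, e3] at h2
    omega
  have hu : padicValRat 3 (3 * s 1 - 40 : ℚ) = 0 := by
    rcases eq_or_ne (s 1) 0 with h | h
    · rw [h, mul_zero, zero_sub, e40']
    · have hs1 := (s16uc_mem_zl_iff (ℓ := 3)).mp (hs 1)
      have h3s : padicValRat 3 (3 * s 1 : ℚ) = 1 + padicValRat 3 (s 1) := by
        rw [padicValRat.mul (by norm_num) h, e3]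
      have hlt : padicValRat 3 (-40 : ℚ) < padicValRat 3 (3 * s 1 : ℚ) := by
        rw [e40', h3s]
        omega
      have hsum : (-40 : ℚ) + 3 * s 1 ≠ 0 := by
        intro h0'
        apply hu0
        linarith
      have := padicValRat.add_eq_of_lt (p := 3) hsum (by norm_num) (mul_ne_zero (by norm_num) h) hlt
      rw [show (3 * s 1 - 40 : ℚ) = -40 + 3 * s 1 by ring, this, e40']
  have hp1 : ((p + 1 : ℕ) : ℚ) ≠ 0 := by exact_mod_cast Nat.succ_ne_zero p
  have ht0 : t ≠ 0 := by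
    intro h
    rw [h, mul_zero, neg_zero] at hmain
    rcases mul_eq_zero.mp hmain with h1 | h1
    · exact hp1 h1
    · rcases mul_eq_zero.mp h1 with h2 | h2
      · norm_num at h2
      · exact hu0 h2
  have hval := congrArg (padicValRat 3) hmain
  have e2 : padicValRat 3 (2 : ℚ) = 0 := by
    have := s16hs_val_natCast 2 (by norm_num)
    exact_mod_cast this
  have e27 : padicValRat 3 (27 : ℚ) = 3 := by
    have h1 : ((3 ^ 3 : ℕ) : ℚ) = 27 := by norm_num
    rw [← h1, padicValRat.of_nat, padicValNat.prime_pow]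
    norm_num
  rw [padicValRat.mul hp1 (mul_ne_zero (by norm_num) hu0),
    padicValRat.mul (by norm_num) hu0, hu, e2, padicValRat.neg,
    padicValRat.mul (by norm_num) ht0, e27, padicValRat.of_nat] at hval
  have htv := (s16uc_mem_zl_iff (ℓ := 3)).mp htZ
  have h3 : 3 ≤ padicValNat 3 (p + 1) := by
    have : (3 : ℤ) ≤ (padicValNat 3 (p + 1) : ℤ) := by omega
    exact_mod_cast this
  apply h27
  have := pow_dvd_pow 3 h3
  exact (show (27 : ℕ) = 3 ^ 3 by norm_num) ▸ this.trans pow_padicValNat_dvd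

end Fermat.Agent.S16
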