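/-
S16 case (h) (`ℓ = 3`, `p ≡ 2 mod 3`, no `G ≡ 1 mod 9`): assembly of
`s16_ub_h_big` (helper11, `9 ∣ p + 1`) and `s16_ub_h_small` (helper16, `¬ 27 ∣ p + 1`).
-/
import Fermat.Agent.S16.UB.CaseH
import Fermat.Agent.S16.UB.CaseHSmall

set_option autoImplicit false

namespace Fermat.Agent.S16

/-- (h) `ℓ = 3`, `p ≡ 2 mod 3`: no `G ≡ 1 mod 9`. -/
theorem s16_ub_h (p : ℕ) [Fact p.Prime] (hp : 5 ≤ p) (h3 : p % 3 = 2) : ¬ S16Unit p 3 2 := by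
  have _ := h3
  by_cases h27 : 27 ∣ p + 1
  · exact s16_ub_h_big (p := p) ((by norm_num : 9 ∣ 27).trans h27)
  · exact s16_ub_h_small p hp h27

end Fermat.Agent.S16
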