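/-
S16 / UB core (helper11): `U_p² = 1` on `M₂(Γ₀(p))`, on `q`-expansions (from `Tr G ∈ M₂(SL₂ ℤ) = 0`).
-/
import Fermat.Agent.S16.UB.Trace

set_option autoImplicit false
set_option linter.style.haveILetI false
set_option linter.unusedSectionVars false

noncomputable section

namespace Fermat.Agent.S16

open UpperHalfPlane ModularForm ModularGroup CongruenceSubgroup Matrix.SpecialLinearGroup
  Fermat.Agent.S24 Fermat.Agent.S20 EisensteinSeries Filter
open scoped MatrixGroups ModularForm Manifold Real Topology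

local notation "ofPS" => HahnSeries.ofPowerSeries ℤ ℂ

variable (p : ℕ) [hp : Fact p.Prime]

/-- `U_p (U_p G) = G` for `G ∈ M₂(Γ₀(p))` (`a_{p² n}(G) = a_n(G)`). -/
theorem s16ub_U_U (F : ModularForm (CongruenceSubgroup.Gamma0 p) 2) :
    (PowerSeries.mk fun n => PowerSeries.coeff (p * n)
      (PowerSeries.mk fun n => PowerSeries.coeff (p * n) (qExpansion 1 F))) = qExpansion 1 F := by
  have hp0 : p ≠ 0 := hp.out.ne_zero
  have hpC : (p : ℂ) ≠ 0 := by exact_mod_cast hp0
  have hF : S16ubForm p 2 (F : ℍ → ℂ) := s16ubForm_of_modularForm F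
  have hA := s16ub_hasCuspExp_form p hF
  have hB := s16ub_hasCuspExp_slash_S p hF hA
  have htr := s16ub_hasCuspExp_tr p 2 hA hB
  rw [s16ubTr_weight_two p hF] at htr
  have h0 : HasCuspExp 1 (0 : ℍ → ℂ) (0 : LaurentSeries ℂ) := by
    have := HasCuspExp.const (h := 1) (0 : ℂ)
    rw [map_zero] at this
    exact this
  have hser := htr.unique h0
  have hcontr := s16ubContract_ofPS p (qExpansion 1 (F : ℍ → ℂ))
  rw [hcontr] at hser
  have hneg : s16ubContract p (-((p : ℂ)⁻¹ • ofPS (s16ubU p (qExpansion 1 (F : ℍ → ℂ))))) =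
      -((p : ℂ)⁻¹ • ofPS (s16ubU p (s16ubU p (qExpansion 1 (F : ℍ → ℂ))))) := by
    have e1 : ∀ X : LaurentSeries ℂ, s16ubContract p (-((p : ℂ)⁻¹ • X)) =
        -((p : ℂ)⁻¹ • s16ubContract p X) := by
      intro X
      ext m
      simp only [s16ubContract_coeff, HahnSeries.coeff_neg, HahnSeries.coeff_smul]
    rw [e1, s16ubContract_ofPS]
  rw [hneg, smul_neg, smul_smul, mul_inv_cancel₀ hpC, one_smul, ← sub_eq_add_neg, sub_eq_zero] at hser
  exact (HahnSeries.ofPowerSeries_injective (Γ := ℤ) (R := ℂ) hser).symm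

end Fermat.Agent.S16
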